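import Fermat.Agent.S48.WT1.Lipschitz

set_option autoImplicit false

/-!
# S48 / WT1 : closed forms in weights `3`, `4`; the constant term of `G_{k,(0,b)}`
-/

namespace Fermat.Agent.S48.WT1

open UpperHalfPlane ModularForm EisensteinSeries Matrix Filter Topology Complex
open scoped MatrixGroups Manifold ModularForm Real

noncomputable section

/-- `w (1 + w) / (1 - w)^3`. -/
def Ecl3 (w : ℂ) : ℂ := w * (1 + w) / (1 - w) ^ 3

/-- `w (1 + 4 w + w^2) / (1 - w)^4`. -/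
def Ecl4 (w : ℂ) : ℂ := w * (1 + 4 * w + w ^ 2) / (1 - w) ^ 4

theorem ConstTerm_choose_one (n : ℕ) : (((n + 1).choose 1 : ℕ) : ℂ) = n + 1 := by
  rw [Nat.choose_one_right]; push_cast; ring

theorem ConstTerm_choose_two (n : ℕ) : (((n + 2).choose 2 : ℕ) : ℂ) = (n + 2) * (n + 1) / 2 := by
  rw [Nat.cast_choose_two]; push_cast; ring

theorem ConstTerm_choose_three (n : ℕ) :
    (((n + 3).choose 3 : ℕ) : ℂ) = (n + 3) * (n + 2) * (n + 1) / 6 := by
  induction n with
  | zero => norm_num [Nat.choose]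
  | succ n ih =>
    have h : (n + 1 + 3).choose 3 = (n + 3).choose 2 + (n + 3).choose 3 := by
      rw [show n + 1 + 3 = (n + 3) + 1 from rfl, show (3 : ℕ) = 2 + 1 from rfl,
        Nat.choose_succ_succ]
    rw [h, Nat.cast_add, ih, Nat.cast_choose_two]
    push_cast
    ring

theorem ConstTerm_one_sub_ne_zero {x : ℂ} (hx : ‖x‖ < 1) : 1 - x ≠ 0 := by
  intro h
  have : x = 1 := (sub_eq_zero.1 h).symm
  rw [this, norm_one] at hx
  exact lt_irrefl _ hx

/-- `∑ n² xⁿ = x(1+x)/(1-x)³` (e.g. from `tsum_choose_mul_geometric_of_norm_lt_one`, or multiply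
out with `hasSum_coe_mul_geometric_of_norm_lt_one`). -/
theorem Ek_three {x : ℂ} (hx : ‖x‖ < 1) : Ek 3 x = Ecl3 x := by
  have h0 := hasSum_choose_mul_geometric_of_norm_lt_one 0 hx
  have h1 := hasSum_choose_mul_geometric_of_norm_lt_one 1 hx
  have h2 := hasSum_choose_mul_geometric_of_norm_lt_one 2 hx
  have h := ((h2.mul_left 2).sub (h1.mul_left 3)).add h0
  have hne := ConstTerm_one_sub_ne_zero hx
  unfold Ek Ecl3
  have e : (fun n : ℕ => (n : ℂ) ^ (3 - 1) * x ^ n) = fun n : ℕ =>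
      2 * ((((n + 2).choose 2 : ℕ) : ℂ) * x ^ n) - 3 * ((((n + 1).choose 1 : ℕ) : ℂ) * x ^ n)
        + (((n + 0).choose 0 : ℕ) : ℂ) * x ^ n := by
    funext n
    rw [ConstTerm_choose_two, ConstTerm_choose_one, Nat.choose_zero_right]
    push_cast
    ring
  rw [e, h.tsum_eq]
  field_simp
  ring

theorem Ek_four {x : ℂ} (hx : ‖x‖ < 1) : Ek 4 x = Ecl4 x := by
  have h0 := hasSum_choose_mul_geometric_of_norm_lt_one 0 hx
  have h1 := hasSum_choose_mul_geometric_of_norm_lt_one 1 hx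
  have h2 := hasSum_choose_mul_geometric_of_norm_lt_one 2 hx
  have h3 := hasSum_choose_mul_geometric_of_norm_lt_one 3 hx
  have h := (((h3.mul_left 6).sub (h2.mul_left 12)).add (h1.mul_left 7)).sub h0
  have hne := ConstTerm_one_sub_ne_zero hx
  unfold Ek Ecl4
  have e : (fun n : ℕ => (n : ℂ) ^ (4 - 1) * x ^ n) = fun n : ℕ =>
      6 * ((((n + 3).choose 3 : ℕ) : ℂ) * x ^ n) - 12 * ((((n + 2).choose 2 : ℕ) : ℂ) * x ^ n)
        + 7 * ((((n + 1).choose 1 : ℕ) : ℂ) * x ^ n) - (((n + 0).choose 0 : ℕ) : ℂ) * x ^ n := by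
    funext n
    rw [ConstTerm_choose_three, ConstTerm_choose_two, ConstTerm_choose_one, Nat.choose_zero_right]
    push_cast
    ring
  rw [e, h.tsum_eq]
  field_simp
  ring

theorem stdAddChar_ne_one (L : ℕ) [NeZero L] {b : ZMod L} (hb : b ≠ 0) :
    (ZMod.stdAddChar b : ℂ) ≠ 1 := by
  intro h
  apply hb
  apply ZMod.injective_stdAddChar
  rw [h, AddChar.map_zero_eq_one]

theorem stdAddChar_pow_eq_one (L : ℕ) [NeZero L] (b : ZMod L) :
    (ZMod.stdAddChar b : ℂ) ^ L = 1 := by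
  rw [← AddChar.map_nsmul_eq_pow, nsmul_eq_mul, ZMod.natCast_self, zero_mul,
    AddChar.map_zero_eq_one]


theorem ConstTerm_norm_ge (ε : ℝ) (d : ℤ) : |(d : ℝ)| ≤ ‖(ε : ℂ) * Complex.I + d‖ := by
  have h := Complex.abs_re_le_norm ((ε : ℂ) * Complex.I + d)
  simpa using h

/-- general principle: let `y = i ε`, `ε → 0+` in `inner_sum`.  LHS tends to `Zc L k b` by dominated
convergence (`tendsto_tsum_of_dominated_convergence`, `‖iε + d‖ ≥ |d|`, and `d ≠ 0` since `b ≠ 0`),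
RHS is `Ck * F (w * exp(-2π ε / L))`, `F` continuous at `w ≠ 1`. -/
theorem Zc_eq_of_closed_form (L : ℕ) [NeZero L] {k : ℕ} (hk : 2 ≤ k) {b : ZMod L} (hb : b ≠ 0)
    (F : ℂ → ℂ) (hF : ∀ x : ℂ, ‖x‖ < 1 → Ek k x = F x)
    (hcont : ContinuousAt F (ZMod.stdAddChar b)) :
    Zc L k b = Ck L k * F (ZMod.stdAddChar b) := by
  set w : ℂ := ZMod.stdAddChar b with hw
  have hwn : ‖w‖ = 1 := AddChar.norm_apply _ _
  -- the family
  let f : ℝ → ℤ → ℂ := fun ε d =>
    if ((d : ℤ) : ZMod L) = b then ((ε : ℂ) * Complex.I + d) ^ (-(k : ℤ)) else 0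
  let g : ℤ → ℂ := fun d => if ((d : ℤ) : ZMod L) = b then (d : ℂ) ^ (-(k : ℤ)) else 0
  let bound : ℤ → ℝ := fun d => 1 / |(d : ℝ)| ^ k
  have hbound : Summable bound := by
    have := (Real.summable_one_div_int_pow (p := k)).2 (by omega)
    refine this.abs.congr ?_
    intro d
    simp only [bound]
    rw [abs_div, abs_one, abs_pow]
  have hd0 : ∀ d : ℤ, ((d : ℤ) : ZMod L) = b → d ≠ 0 := by
    intro d hd h0
    apply hb
    rw [← hd, h0, Int.cast_zero]
  have hlim : ∀ d : ℤ, Tendsto (fun ε : ℝ => f ε d) (𝓝[>] (0 : ℝ)) (𝓝 (g d)) := by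
    intro d
    simp only [f, g]
    split_ifs with hd
    · have hdne : (d : ℂ) ≠ 0 := by exact_mod_cast hd0 d hd
      have hc : ContinuousAt (fun ε : ℝ => ((ε : ℂ) * Complex.I + d) ^ (-(k : ℤ))) 0 := by
        apply ContinuousAt.zpow₀
        · fun_prop
        · left; simpa using hdne
      have := hc.tendsto
      simp only [Complex.ofReal_zero, zero_mul, zero_add] at this
      exact this.mono_left nhdsWithin_le_nhds
    · exact tendsto_const_nhds
  have hle : ∀ᶠ ε : ℝ in 𝓝[>] (0 : ℝ), ∀ d : ℤ, ‖f ε d‖ ≤ bound d := by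
    refine Filter.Eventually.of_forall ?_
    intro ε d
    simp only [f, bound]
    split_ifs with hd
    · have hdne : (0 : ℝ) < |(d : ℝ)| := by
        rw [abs_pos]; exact_mod_cast hd0 d hd
      rw [norm_zpow, _root_.zpow_neg, zpow_natCast, one_div]
      apply inv_anti₀ (pow_pos hdne k)
      exact pow_le_pow_left₀ hdne.le (ConstTerm_norm_ge ε d) k
    · rw [norm_zero]; positivity
  have h1 : Tendsto (fun ε : ℝ => ∑' d : ℤ, f ε d) (𝓝[>] (0 : ℝ)) (𝓝 (∑' d : ℤ, g d)) :=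
    tendsto_tsum_of_dominated_convergence hbound hlim hle
  -- the right hand side
  have h2 : Tendsto (fun ε : ℝ => Ck L k * F (w * cexp (2 * π * Complex.I * ((ε : ℂ) * Complex.I) / L)))
      (𝓝[>] (0 : ℝ)) (𝓝 (Ck L k * F w)) := by
    apply Tendsto.const_mul
    have hc : ContinuousAt (fun ε : ℝ => w * cexp (2 * π * Complex.I * ((ε : ℂ) * Complex.I) / L)) 0 := by
      fun_prop
    have hc0 : (fun ε : ℝ => w * cexp (2 * π * Complex.I * ((ε : ℂ) * Complex.I) / L)) 0 = w := by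
      simp
    have h3 : ContinuousAt (fun ε : ℝ => F (w * cexp (2 * π * Complex.I * ((ε : ℂ) * Complex.I) / L))) 0 := by
      apply ContinuousAt.comp (g := F) _ hc
      have hc0' := hc0
      simp only at hc0'
      rw [hc0']; exact hcont
    have := h3.tendsto
    simp only [hc0] at this
    exact this.mono_left nhdsWithin_le_nhds
  have h4 : (fun ε : ℝ => ∑' d : ℤ, f ε d) =ᶠ[𝓝[>] (0 : ℝ)]
      (fun ε : ℝ => Ck L k * F (w * cexp (2 * π * Complex.I * ((ε : ℂ) * Complex.I) / L))) := by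
    filter_upwards [self_mem_nhdsWithin] with ε hε
    have hε' : (0 : ℝ) < ε := hε
    have him : 0 < ((ε : ℂ) * Complex.I).im := by simpa using hε'
    have h := inner_sum L hk b ⟨(ε : ℂ) * Complex.I, him⟩
    have hcoe : ((⟨(ε : ℂ) * Complex.I, him⟩ : ℍ) : ℂ) = (ε : ℂ) * Complex.I := rfl
    rw [hcoe] at h
    simp only [f]
    rw [h, hF]
    rw [norm_mul, hwn, one_mul, Complex.norm_exp]
    rw [Real.exp_lt_one_iff]
    have hLpos : (0 : ℝ) < L := by exact_mod_cast Nat.pos_of_ne_zero (NeZero.ne L)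
    have e : (2 * π * Complex.I * ((ε : ℂ) * Complex.I) / L : ℂ) = ((-(2 * π * ε / L) : ℝ) : ℂ) := by
      push_cast
      have := Complex.I_mul_I
      linear_combination (2 * π * ε / L : ℂ) * this
    rw [e, Complex.ofReal_re]
    have : 0 < 2 * π * ε / L := by positivity
    linarith
  unfold Zc
  exact tendsto_nhds_unique (h1.congr' h4) h2

theorem Zc_three (L : ℕ) [NeZero L] {b : ZMod L} (hb : b ≠ 0) :
    Zc L 3 b = Ck L 3 * Ecl3 (ZMod.stdAddChar b) := by
  apply Zc_eq_of_closed_form L (by norm_num) hb Ecl3 (fun x hx => Ek_three hx)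
  have hne : (1 - (ZMod.stdAddChar b : ℂ)) ^ 3 ≠ 0 :=
    pow_ne_zero _ (sub_ne_zero.2 (stdAddChar_ne_one L hb).symm)
  unfold Ecl3
  exact ContinuousAt.div (f := fun w : ℂ => w * (1 + w)) (g := fun w : ℂ => (1 - w) ^ 3)
    (by fun_prop) (by fun_prop) hne

theorem Zc_four (L : ℕ) [NeZero L] {b : ZMod L} (hb : b ≠ 0) :
    Zc L 4 b = Ck L 4 * Ecl4 (ZMod.stdAddChar b) := by
  apply Zc_eq_of_closed_form L (by norm_num) hb Ecl4 (fun x hx => Ek_four hx)
  have hne : (1 - (ZMod.stdAddChar b : ℂ)) ^ 4 ≠ 0 :=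
    pow_ne_zero _ (sub_ne_zero.2 (stdAddChar_ne_one L hb).symm)
  unfold Ecl4
  exact ContinuousAt.div (f := fun w : ℂ => w * (1 + 4 * w + w ^ 2)) (g := fun w : ℂ => (1 - w) ^ 4)
    (by fun_prop) (by fun_prop) hne

/-- for odd `L`: `w ≠ -1`, `w ≠ 0`, `w ≠ 1`. -/
theorem Zc_three_ne_zero (L : ℕ) [NeZero L] (hL : Odd L) {b : ZMod L} (hb : b ≠ 0) :
    Zc L 3 b ≠ 0 := by
  rw [Zc_three L hb]
  have hne : (1 - (ZMod.stdAddChar b : ℂ)) ^ 3 ≠ 0 :=
    pow_ne_zero _ (sub_ne_zero.2 (stdAddChar_ne_one L hb).symm)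
  have hpow := stdAddChar_pow_eq_one L b
  have hw0 : (ZMod.stdAddChar b : ℂ) ≠ 0 := by
    intro h
    rw [h, zero_pow (NeZero.ne L)] at hpow
    exact zero_ne_one hpow
  have hw1 : 1 + (ZMod.stdAddChar b : ℂ) ≠ 0 := by
    intro h
    have h' : (ZMod.stdAddChar b : ℂ) = -1 := by linear_combination h
    rw [h', hL.neg_one_pow] at hpow
    norm_num at hpow
  unfold Ecl3
  exact mul_ne_zero (Ck_ne_zero L 3) (div_ne_zero (mul_ne_zero hw0 hw1) hne)

end

end Fermat.Agent.S48.WT1
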