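import Fermat.Agent.S48.WT1.EisDefs

set_option autoImplicit false

/-!
# S48 / WT1 : the expansion of `G_{k,(a,b)}` in `t = q^(1/L)`
-/

namespace Fermat.Agent.S48.WT1

open UpperHalfPlane ModularForm EisensteinSeries Matrix Filter Topology Complex
open Fermat.Agent.GAL.Tors.TwistedEis
open scoped MatrixGroups Manifold ModularForm Real

noncomputable section

/-- **Lipschitz formula on a residue class.**  Write `d = b.val + L d'`,
`(y + d)^(-k) = L^(-k) ((y + b.val)/L + d')^(-k)` and apply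
`EisensteinSeries.qExpansion_identity` at the point `(y + b.val)/L ∈ ℍ`;
`ZMod.stdAddChar b = exp(2πi b.val / L)` (`ZMod.stdAddChar_apply`, `ZMod.toCircle_apply`). -/
theorem inner_sum (L : ℕ) [NeZero L] {k : ℕ} (hk : 2 ≤ k) (b : ZMod L) (y : ℍ) :
    (∑' d : ℤ, if ((d : ℤ) : ZMod L) = b then ((y : ℂ) + d) ^ (-(k : ℤ)) else 0) =
      Ck L k * Ek k (ZMod.stdAddChar b * cexp (2 * π * Complex.I * y / L)) := by
  obtain ⟨k', rfl⟩ : ∃ k', k = k' + 1 := ⟨k - 1, by omega⟩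
  have hk' : 1 ≤ k' := by omega
  have hL : (L : ℂ) ≠ 0 := Nat.cast_ne_zero.2 (NeZero.ne L)
  have hLpos : (0 : ℝ) < L := Nat.cast_pos.2 (Nat.pos_of_ne_zero (NeZero.ne L))
  set b0 : ℤ := (b.val : ℤ) with hb0
  have hb0b : ((b0 : ℤ) : ZMod L) = b := by
    rw [hb0]; simp
  let e : ℤ → ℤ := fun d' => b0 + L * d'
  have he : Function.Injective e := by
    intro d1 d2 h
    have h1 : (L : ℤ) * d1 = L * d2 := add_left_cancel h
    exact mul_left_cancel₀ (Nat.cast_ne_zero.2 (NeZero.ne L)) h1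
  have hsupp : Function.support
      (fun d : ℤ => if ((d : ℤ) : ZMod L) = b then ((y : ℂ) + d) ^ (-((k' + 1 : ℕ) : ℤ)) else 0)
      ⊆ Set.range e := by
    intro d hd
    have hdb : ((d : ℤ) : ZMod L) = b := by
      by_contra h
      exact hd (if_neg h)
    have h1 : ((d - b0 : ℤ) : ZMod L) = 0 := by
      rw [Int.cast_sub, hdb, hb0b, sub_self]
    obtain ⟨c, hc⟩ := (ZMod.intCast_zmod_eq_zero_iff_dvd _ _).1 h1
    exact ⟨c, by show b0 + L * c = d; rw [← hc]; ring⟩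
  rw [← he.tsum_eq hsupp]
  have hwim : 0 < (((y : ℂ) + b0) / L).im := by
    have : (((y : ℂ) + b0) / L).im = y.im / L := by
      rw [← Complex.ofReal_natCast, Complex.div_ofReal_im]
      simp
    rw [this]
    exact div_pos y.im_pos hLpos
  let w : ℍ := ⟨((y : ℂ) + b0) / L, hwim⟩
  have hterm : ∀ d' : ℤ, (if ((e d' : ℤ) : ZMod L) = b
      then ((y : ℂ) + (e d' : ℤ)) ^ (-((k' + 1 : ℕ) : ℤ)) else 0)
      = ((L : ℂ) ^ (k' + 1))⁻¹ * (1 / ((w : ℂ) + d') ^ (k' + 1)) := by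
    intro d'
    have h1 : ((e d' : ℤ) : ZMod L) = b := by
      show ((b0 + L * d' : ℤ) : ZMod L) = b
      rw [Int.cast_add, hb0b]; simp
    rw [if_pos h1, _root_.zpow_neg, zpow_natCast]
    have h2 : (y : ℂ) + (e d' : ℤ) = L * ((w : ℂ) + d') := by
      show (y : ℂ) + ((b0 + L * d' : ℤ) : ℂ) = L * (((y : ℂ) + b0) / L + d')
      push_cast
      field_simp
      ring
    rw [h2, mul_pow, mul_inv, one_div]
  simp_rw [hterm]
  rw [tsum_mul_left, EisensteinSeries.qExpansion_identity hk' w]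
  have hx : ZMod.stdAddChar b * cexp (2 * π * Complex.I * y / L) = cexp (2 * π * Complex.I * w) := by
    rw [← hb0b, ZMod.stdAddChar_coe, ← Complex.exp_add]
    congr 1
    show _ = 2 * π * Complex.I * (((y : ℂ) + b0) / L)
    ring
  rw [hx, Ck, Ek]
  simp only [Nat.add_sub_cancel]
  field_simp

/-- the summand of `G_{k,(a,b)}`. -/
def Lipschitz_F (L k : ℕ) (a b : ZMod L) (z : ℍ) (c d : ℤ) : ℂ :=
  if ((c : ℤ) : ZMod L) = a then
    (if ((d : ℤ) : ZMod L) = b then ((c : ℂ) * z + d) ^ (-(k : ℤ)) else 0) else 0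

theorem Lipschitz_term (L k : ℕ) (a b : ZMod L) (z : ℍ) (v : Fin 2 → ℤ) :
    ind L ![a, b] v * eisSummand k v z = Lipschitz_F L k a b z (v 0) (v 1) := by
  have hiff : redVec L v = ![a, b] ↔ ((v 0 : ℤ) : ZMod L) = a ∧ ((v 1 : ℤ) : ZMod L) = b := by
    constructor
    · intro h
      exact ⟨congrFun h 0, congrFun h 1⟩
    · rintro ⟨h0, h1⟩
      funext i
      fin_cases i
      · exact h0
      · exact h1
  unfold ind Lipschitz_F eisSummand
  by_cases h0 : ((v 0 : ℤ) : ZMod L) = a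
  · by_cases h1 : ((v 1 : ℤ) : ZMod L) = b
    · rw [if_pos (hiff.mpr ⟨h0, h1⟩), if_pos h0, if_pos h1, one_mul]
    · rw [if_neg (fun h => h1 (hiff.mp h).2), if_pos h0, if_neg h1, zero_mul]
  · rw [if_neg (fun h => h0 (hiff.mp h).1), if_neg h0, zero_mul]

theorem Lipschitz_summable (L : ℕ) {k : ℕ} (hk : 3 ≤ k) (a b : ZMod L) (z : ℍ) :
    Summable fun x : ℤ × ℤ => Lipschitz_F L k a b z x.1 x.2 := by
  have h := summable_gEis (norm_ind_le L ![a, b]) (k := (k : ℤ)) (by exact_mod_cast hk) z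
  refine (finTwoArrowEquiv ℤ).summable_iff.mp (h.congr fun v => ?_)
  rw [Lipschitz_term]
  rfl

theorem Lipschitz_G_eq_tsum (L : ℕ) {k : ℕ} (hk : 3 ≤ k) (a b : ZMod L) (z : ℍ) :
    G L k ![a, b] z = ∑' c : ℤ, ∑' d : ℤ, Lipschitz_F L k a b z c d := by
  rw [← Summable.tsum_prod (Lipschitz_summable L hk a b z),
    ← (finTwoArrowEquiv ℤ).tsum_eq (fun x : ℤ × ℤ => Lipschitz_F L k a b z x.1 x.2)]
  unfold G gEis
  refine tsum_congr fun v => ?_
  rw [Lipschitz_term]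
  rfl

theorem Lipschitz_zero (L k : ℕ) (a b : ZMod L) (z : ℍ) :
    ∑' d : ℤ, Lipschitz_F L k a b z 0 d = if a = 0 then Zc L k b else 0 := by
  unfold Lipschitz_F
  by_cases ha : a = 0
  · rw [if_pos ha]
    unfold Zc
    refine tsum_congr fun d => ?_
    rw [if_pos (by rw [ha]; simp)]
    simp
  · rw [if_neg ha]
    have : ∀ d : ℤ, (if (((0 : ℤ) : ℤ) : ZMod L) = a then
        (if ((d : ℤ) : ZMod L) = b then (((0 : ℤ) : ℂ) * z + d) ^ (-(k : ℤ)) else 0) else 0) = 0 := by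
      intro d
      rw [if_neg]
      intro h
      apply ha
      rw [← h]; simp
    simp only [this, tsum_zero]

/-- the point `c z`. -/
def Lipschitz_pt (c : ℕ+) (z : ℍ) : ℍ :=
  ⟨(c : ℂ) * z, by
    have hc : (0 : ℝ) < (c : ℕ) := by exact_mod_cast c.pos
    have : ((c : ℂ) * z).im = (c : ℕ) * z.im := by simp
    rw [this]
    exact mul_pos hc z.im_pos⟩

theorem Lipschitz_exp (L : ℕ) (c : ℕ+) (z : ℍ) :
    cexp (2 * π * Complex.I * (Lipschitz_pt c z : ℍ) / L) = tq L z ^ (c : ℕ) := by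
  unfold tq
  rw [← Complex.exp_nat_mul]
  congr 1
  show 2 * π * Complex.I * ((c : ℂ) * z) / L = _
  ring

theorem Lipschitz_pos (L : ℕ) [NeZero L] {k : ℕ} (hk : 2 ≤ k) (a b : ZMod L) (z : ℍ) (c : ℕ+) :
    ∑' d : ℤ, Lipschitz_F L k a b z (c : ℕ) d =
      Ck L k * (if (((c : ℕ) : ℕ) : ZMod L) = a
          then Ek k (ZMod.stdAddChar b * tq L z ^ (c : ℕ)) else 0) := by
  unfold Lipschitz_F
  by_cases ha : (((c : ℕ) : ℕ) : ZMod L) = a
  · rw [if_pos ha, ← Lipschitz_exp, ← inner_sum L hk b (Lipschitz_pt c z)]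
    refine tsum_congr fun d => ?_
    rw [if_pos (by rw [← ha]; simp)]
    rfl
  · rw [if_neg ha, mul_zero]
    have : ∀ d : ℤ, (if ((((c : ℕ) : ℤ) : ℤ) : ZMod L) = a then
        (if ((d : ℤ) : ZMod L) = b then ((((c : ℕ) : ℤ) : ℂ) * z + d) ^ (-(k : ℤ)) else 0) else 0)
          = 0 := by
      intro d
      rw [if_neg]
      intro h
      apply ha
      rw [← h]; simp
    simp only [this, tsum_zero]

theorem Lipschitz_neg_eq (L k : ℕ) (a b : ZMod L) (z : ℍ) (c d : ℤ) :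
    Lipschitz_F L k a b z (-c) (-d) = (-1) ^ k * Lipschitz_F L k (-a) (-b) z c d := by
  unfold Lipschitz_F
  have h1 : (((-c : ℤ) : ℤ) : ZMod L) = a ↔ ((c : ℤ) : ZMod L) = -a := by
    rw [Int.cast_neg, neg_eq_iff_eq_neg]
  have h2 : (((-d : ℤ) : ℤ) : ZMod L) = b ↔ ((d : ℤ) : ZMod L) = -b := by
    rw [Int.cast_neg, neg_eq_iff_eq_neg]
  simp only [h1, h2]
  split_ifs
  · have e : (((-c : ℤ) : ℂ) * z + ((-d : ℤ) : ℂ)) = (-1) * ((c : ℂ) * z + d) := by
      push_cast; ring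
    rw [e, mul_zpow]
    congr 1
    rw [_root_.zpow_neg, zpow_natCast, ← inv_pow]
    norm_num
  · rw [mul_zero]
  · rw [mul_zero]

theorem Lipschitz_neg (L : ℕ) [NeZero L] {k : ℕ} (hk : 2 ≤ k) (a b : ZMod L) (z : ℍ) (c : ℕ+) :
    ∑' d : ℤ, Lipschitz_F L k a b z (-((c : ℕ) : ℤ)) d =
      Ck L k * ((-1) ^ k * (if (((c : ℕ) : ℕ) : ZMod L) = -a
          then Ek k (ZMod.stdAddChar (-b) * tq L z ^ (c : ℕ)) else 0)) := by
  rw [← tsum_comp_neg]
  simp only [Lipschitz_neg_eq]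
  rw [tsum_mul_left, Lipschitz_pos L hk (-a) (-b) z c]
  ring

/-- **The `t`-expansion of `G_{k,(a,b)}`.**  Split `∑_{(c,d)}` into `c = 0`, `c > 0`, `c < 0`
(as in Mathlib's `tsum_eisSummand_eq_tsum_sigma_mul_cexp_pow`: `finTwoArrowEquiv`,
`Summable.tsum_prod`, summability from `summable_gEis`), apply `inner_sum` at `y = c • z`;
for `c < 0` use `(c z + d)^(-k) = (-1)^k ((-c) z + (-d))^(-k)` and `d ↦ -d`. -/
theorem G_eq (L : ℕ) [NeZero L] {k : ℕ} (hk : 3 ≤ k) (a b : ZMod L) (z : ℍ) :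
    G L k ![a, b] z = (if a = 0 then Zc L k b else 0) + Ck L k *
      ((∑' c : ℕ+, if (((c : ℕ) : ℕ) : ZMod L) = a
          then Ek k (ZMod.stdAddChar b * tq L z ^ (c : ℕ)) else 0) +
        (-1) ^ k * ∑' c : ℕ+, if (((c : ℕ) : ℕ) : ZMod L) = -a
          then Ek k (ZMod.stdAddChar (-b) * tq L z ^ (c : ℕ)) else 0) := by
  have hk2 : 2 ≤ k := by omega
  rw [Lipschitz_G_eq_tsum L hk a b z,
    tsum_int_eq_zero_add_tsum_pnat (Lipschitz_summable L hk a b z).prod, Lipschitz_zero]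
  simp only [Lipschitz_pos L hk2 a b z, Lipschitz_neg L hk2 a b z]
  rw [tsum_mul_left, tsum_mul_left, tsum_mul_left]
  ring

end

end Fermat.Agent.S48.WT1
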