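import Fermat.Agent.S48.WT1.Main
import Fermat.Agent.S48.Contracts

set_option autoImplicit false

/-!
# S48 / WT1 : the contract `StmtWT1`
-/

namespace Fermat.Agent.S48.WT1

open UpperHalfPlane ModularForm CongruenceSubgroup ModularFormClass
open Fermat.Agent.S48.HK
open scoped MatrixGroups Manifold ModularForm

noncomputable section

variable {κ : Type*} [Field κ]

/-- The localisation of `Zbar` at the kernel of `φ`, inside `ℂ`:
`R = {x / y : x, y ∈ Zbar, φ y ≠ 0}`, `red (x / y) = φ x / φ y`. -/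
theorem exists_redDatum (φ : Zbar →+* κ) :
    ∃ D : RedDatum κ, ∀ x : Zbar, D.Red (x : ℂ) (φ x) := by
  have hRK : Function.Injective (algebraMap Zbar ℂ) := Subtype.val_injective
  let m : Ideal Zbar := RingHom.ker φ
  have : m.IsPrime := RingHom.ker_isPrime φ
  let O := Localization.AtPrime m
  have hK : ∀ y : m.primeCompl, IsUnit (algebraMap Zbar ℂ y) := by
    intro y
    rw [isUnit_iff_ne_zero]
    intro h0
    have : (y : Zbar) = 0 := hRK (by rw [h0, map_zero])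
    exact y.2 (by rw [this]; exact m.zero_mem)
  have hk : ∀ y : m.primeCompl, IsUnit (φ y) := by
    intro y
    rw [isUnit_iff_ne_zero]
    intro h0
    exact y.2 ((RingHom.mem_ker).2 h0)
  let ιK : O →+* ℂ := IsLocalization.lift (M := m.primeCompl) hK
  let ψ : O →+* κ := IsLocalization.lift (M := m.primeCompl) hk
  have hιK : ∀ r, ιK (algebraMap Zbar O r) = algebraMap Zbar ℂ r := fun r =>
    IsLocalization.lift_eq (M := m.primeCompl) hK r
  have hψ : ∀ r, ψ (algebraMap Zbar O r) = φ r := fun r =>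
    IsLocalization.lift_eq (M := m.primeCompl) hk r
  have hinj : Function.Injective ιK := by
    rw [injective_iff_map_eq_zero]
    intro x hx
    obtain ⟨r, s, rfl⟩ := IsLocalization.exists_mk'_eq m.primeCompl x
    have h1 : ιK (IsLocalization.mk' O r s) * algebraMap Zbar ℂ s = algebraMap Zbar ℂ r := by
      rw [← hιK, ← hιK, ← map_mul, IsLocalization.mk'_spec]
    rw [hx, zero_mul] at h1
    have : r = 0 := hRK (by rw [← h1, map_zero])
    rw [this, IsLocalization.mk'_zero]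
  have hunit : ∀ x : O, ψ x ≠ 0 → IsUnit x := by
    intro x hx
    obtain ⟨r, s, rfl⟩ := IsLocalization.exists_mk'_eq m.primeCompl x
    have h1 : ψ (IsLocalization.mk' O r s) * φ s = φ r := by
      rw [← hψ, ← hψ, ← map_mul, IsLocalization.mk'_spec]
    have h2 : φ r ≠ 0 := by
      rw [← h1]
      exact mul_ne_zero hx (hk s).ne_zero
    have h3 : r ∈ m.primeCompl := fun h => h2 ((RingHom.mem_ker).1 h)
    have h4 : IsUnit (algebraMap Zbar O r) := IsLocalization.map_units O (⟨r, h3⟩ : m.primeCompl)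
    have h5 : IsLocalization.mk' O r s * algebraMap Zbar O s = algebraMap Zbar O r :=
      IsLocalization.mk'_spec O r s
    rw [← h5] at h4
    exact isUnit_of_mul_isUnit_left h4
  let e : O ≃+* ιK.range := RingEquiv.ofBijective ιK.rangeRestrict
    ⟨fun a b hab => hinj (congrArg Subtype.val hab), ιK.rangeRestrict_surjective⟩
  have he : ∀ o : O, ((e o : ιK.range) : ℂ) = ιK o := fun _ => rfl
  refine ⟨⟨ιK.range, ψ.comp (e.symm : ιK.range →+* O), ?_⟩, ?_⟩
  · intro x hx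
    obtain ⟨o, rfl⟩ := e.surjective x
    have h1 : ψ o ≠ 0 := by
      have : ψ (e.symm (e o)) ≠ 0 := hx
      rwa [e.symm_apply_apply] at this
    obtain ⟨u, rfl⟩ := hunit o h1
    refine ⟨((u⁻¹ : Oˣ) : O), ?_⟩
    rw [he]
    apply eq_inv_of_mul_eq_one_left
    rw [← map_mul, Units.inv_mul, map_one]
  · intro x
    refine ⟨⟨algebraMap Zbar O x, hιK x⟩, ?_⟩
    show ψ (e.symm ⟨(x : ℂ), _⟩) = φ x
    have : e.symm ⟨(x : ℂ), ⟨algebraMap Zbar O x, hιK x⟩⟩ = algebraMap Zbar O x := by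
      rw [RingEquiv.symm_apply_eq]
      exact Subtype.ext (hιK x).symm
    rw [this, hψ]

/-- a value of a Dirichlet character is integral (`0` or a root of unity). -/
theorem isIntegral_dirichlet {N : ℕ} [NeZero N] (ε : DirichletCharacter ℂ N) (d : ZMod N) :
    IsIntegral ℤ (ε d) := by
  by_cases hd : IsUnit d
  · obtain ⟨u, rfl⟩ := hd
    refine IsIntegral.of_pow (n := Fintype.card (ZMod N)ˣ) Fintype.card_pos ?_
    rw [← map_pow, ← Units.val_pow_eq_pow_val, pow_card_eq_one, Units.val_one, map_one]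
    exact isIntegral_one
  · rw [MulChar.map_nonunit ε hd]
    exact isIntegral_zero

/-- **Contract WT1.**  `B = {2, 3}`; `D` from `exists_redDatum φ`; `θ = eigSys ...`;
`occurs_weightOne`; `hneb` from `Good.neben` with `γ = diaRep N d` (`coe_diamond`, `diaRep_mem`,
`diaRep_apply`, `DFunLike.coe_injective`); `hζ`: roots of unity are integral;
`(p.unit : ZMod (N ℓ)).val` and `p` have the same image in `κ` (char `ℓ ∣ N ℓ`), non zero. -/
theorem stmtWT1 : StmtWT1 := by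
  intro N _ D hG
  refine ⟨{2, 3}, ?_⟩
  intro ℓ _ hℓ hB κ _ _ φ
  have h5 : 5 ≤ ℓ := by
    have h2 : ℓ ≠ 2 := fun h => hB (by simp [h])
    have h3 : ℓ ≠ 3 := fun h => hB (by simp [h])
    have h4 : ℓ ≠ 4 := by
      rintro rfl
      exact absurd hℓ (by norm_num)
    have := hℓ.two_le
    omega
  obtain ⟨R, hR⟩ := exists_redDatum φ
  have hfR : ∀ n, qCoeff D.f n ∈ R.R := fun n => (hR ⟨_, hG.integral n⟩).mem
  have hεR : ∀ d : ZMod N, D.ε d ∈ R.R := fun d => (hR ⟨_, isIntegral_dirichlet D.ε d⟩).mem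
  have hζ : ∀ x : ℂ, x ^ ℓ = 1 → x ∈ R.R := by
    intro x hx
    have hint : IsIntegral ℤ x := IsIntegral.of_pow hℓ.pos (by rw [hx]; exact isIntegral_one)
    exact (hR ⟨x, hint⟩).mem
  have hneb : ∀ d : (ZMod N)ˣ, diamond 1 d D.f = D.ε (d : ZMod N) • D.f := by
    intro d
    apply DFunLike.coe_injective
    rw [coe_diamond, hG.neben _ (diaRep_mem N d), diaRep_apply]
    rfl
  refine ⟨eigSys R N ℓ D.ε D.f hfR hεR,
    occurs_weightOne R N ℓ hℓ h5 (CharP.cast_eq_zero κ ℓ) hζ D.ε D.f D.one D.hecke hneb hfR hεR, ?_⟩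
  intro p
  refine ⟨⟨_, hG.integral p.1⟩, ⟨_, isIntegral_dirichlet D.ε ((p.1 : ℕ) : ZMod N)⟩, rfl, rfl, ?_, ?_⟩
  · obtain ⟨h, h'⟩ := hR ⟨_, hG.integral p.1⟩
    exact h'
  · have hu : ((ZMod.unitsMap (Dvd.intro ℓ rfl) p.unit : (ZMod N)ˣ) : ZMod N)
        = ((p.1 : ℕ) : ZMod N) := by
      rw [ZMod.unitsMap_val, GoodPrime.coe_unit, ZMod.cast_natCast (Dvd.intro ℓ rfl)]
    have hM : ((N * ℓ : ℕ) : κ) = 0 := by
      rw [Nat.cast_mul, CharP.cast_eq_zero κ ℓ, mul_zero]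
    have hv : (((p.unit : (ZMod (N * ℓ))ˣ) : ZMod (N * ℓ)).val : κ) = ((p.1 : ℕ) : κ) := by
      rw [GoodPrime.coe_unit, ZMod.val_natCast]
      conv_rhs => rw [← Nat.mod_add_div p.1 (N * ℓ)]
      rw [Nat.cast_add, Nat.cast_mul, hM, zero_mul, add_zero]
    have hp0 : ((p.1 : ℕ) : κ) ≠ 0 := by
      intro h0
      rw [CharP.cast_eq_zero_iff κ ℓ] at h0
      have : ℓ = p.1 := (Nat.prime_dvd_prime_iff_eq hℓ p.2.1).1 h0
      exact p.2.2 (this ▸ Dvd.intro_left N rfl)
    obtain ⟨h, h'⟩ := hR ⟨_, isIntegral_dirichlet D.ε ((p.1 : ℕ) : ZMod N)⟩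
    show ((p.1 : ℕ) : κ) * (R.red ⟨D.ε ((ZMod.unitsMap (Dvd.intro ℓ rfl) p.unit : (ZMod N)ˣ) :
      ZMod N), hεR _⟩ * ((((p.unit : (ZMod (N * ℓ))ˣ) : ZMod (N * ℓ)).val : κ)⁻¹)) = _
    rw [hv, mul_comm (R.red _), ← mul_assoc, mul_inv_cancel₀ hp0, one_mul, ← h']
    congr 2
    rw [hu]

end

end Fermat.Agent.S48.WT1
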