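import Fermat.Agent.S48.WT1.Lipschitz

set_option autoImplicit false

/-!
# S48 / WT1 : the order of `G_{k,(a,b)}` at `i∞`
-/

namespace Fermat.Agent.S48.WT1

open UpperHalfPlane ModularForm EisensteinSeries Matrix Filter Topology Complex
open scoped MatrixGroups Manifold ModularForm Real

noncomputable section

/-- the order of `G_{k,(a,b)}` at `i∞` in the parameter `t = q^(1/L)`. -/
def mu (L : ℕ) (a : ZMod L) : ℕ := min a.val (L - a.val)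

/-- `‖Ek k x - x‖ ≤ C ‖x‖²` for `‖x‖ ≤ 1/2` (`k ≥ 2`; for `k = 1` the series has constant term `1`). -/
theorem exists_Ek_bound (k : ℕ) (hk : 2 ≤ k) :
    ∃ C : ℝ, ∀ x : ℂ, ‖x‖ ≤ 1 / 2 → ‖Ek k x - x‖ ≤ C * ‖x‖ ^ 2 := by
  have hs0 : Summable (fun n : ℕ => ((n : ℝ)) ^ (k - 1) * (1 / 2 : ℝ) ^ n) :=
    summable_pow_mul_geometric_of_norm_lt_one (k - 1) (by norm_num)
  have hs1 : Summable (fun n : ℕ => (((n + 2 : ℕ) : ℝ)) ^ (k - 1) * (1 / 2 : ℝ) ^ (n + 2)) :=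
    (summable_nat_add_iff 2).mpr hs0
  have hs2 : Summable (fun n : ℕ => (((n + 2 : ℕ) : ℝ)) ^ (k - 1) * (1 / 2 : ℝ) ^ n) := by
    refine (hs1.mul_left 4).congr fun n => ?_
    rw [pow_add]
    ring
  refine ⟨∑' n : ℕ, (((n + 2 : ℕ) : ℝ)) ^ (k - 1) * (1 / 2 : ℝ) ^ n, fun x hx => ?_⟩
  have hx1 : ‖x‖ < 1 := lt_of_le_of_lt hx (by norm_num)
  have hsx : Summable (fun n : ℕ => (n : ℂ) ^ (k - 1) * x ^ n) :=
    summable_pow_mul_geometric_of_norm_lt_one (k - 1) hx1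
  have h1 : Ek k x - x = ∑' n : ℕ, ((n + 2 : ℕ) : ℂ) ^ (k - 1) * x ^ (n + 2) := by
    rw [Ek, ← hsx.sum_add_tsum_nat_add 2, Finset.sum_range_succ, Finset.sum_range_one]
    have hk1 : k - 1 ≠ 0 := by omega
    simp [hk1]
  rw [h1, mul_comm]
  refine tsum_of_norm_bounded (hs2.hasSum.mul_left (‖x‖ ^ 2)) fun n => ?_
  rw [norm_mul, norm_pow, norm_pow, Complex.norm_natCast, pow_add]
  have h2 : ‖x‖ ^ n ≤ (1 / 2 : ℝ) ^ n := pow_le_pow_left₀ (norm_nonneg _) hx n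
  have h3 : (0 : ℝ) ≤ ((n + 2 : ℕ) : ℝ) ^ (k - 1) := by positivity
  have h4 : (0 : ℝ) ≤ ‖x‖ ^ 2 := by positivity
  calc ((n + 2 : ℕ) : ℝ) ^ (k - 1) * (‖x‖ ^ n * ‖x‖ ^ 2)
      = ‖x‖ ^ 2 * (((n + 2 : ℕ) : ℝ) ^ (k - 1) * ‖x‖ ^ n) := by ring
    _ ≤ ‖x‖ ^ 2 * (((n + 2 : ℕ) : ℝ) ^ (k - 1) * (1 / 2 : ℝ) ^ n) := by gcongr


theorem Asymp_Ek_le (k : ℕ) (hk : 2 ≤ k) :
    ∃ C₁ : ℝ, 0 ≤ C₁ ∧ ∀ x : ℂ, ‖x‖ ≤ 1 / 2 → ‖Ek k x‖ ≤ C₁ * ‖x‖ := by
  obtain ⟨C, hC⟩ := exists_Ek_bound k hk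
  refine ⟨1 + |C|, by positivity, fun x hx => ?_⟩
  have h1 := hC x hx
  have h2 : ‖Ek k x‖ ≤ ‖Ek k x - x‖ + ‖x‖ := by
    have := norm_add_le (Ek k x - x) x
    rwa [sub_add_cancel] at this
  have h3 : C * ‖x‖ ^ 2 ≤ |C| * ‖x‖ := by
    have h4 : ‖x‖ ^ 2 ≤ ‖x‖ := by
      have := norm_nonneg x
      nlinarith
    calc C * ‖x‖ ^ 2 ≤ |C| * ‖x‖ ^ 2 := by
          exact mul_le_mul_of_nonneg_right (le_abs_self C) (by positivity)
      _ ≤ |C| * ‖x‖ := mul_le_mul_of_nonneg_left h4 (abs_nonneg C)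
  linarith

theorem Asymp_pow_le {r : ℝ} (h0 : 0 ≤ r) (h1 : r ≤ 1 / 2) {m c : ℕ} (hc : m ≤ c) :
    r ^ c ≤ 2 ^ m * r ^ m * (1 / 2 : ℝ) ^ c := by
  obtain ⟨d, rfl⟩ := Nat.exists_eq_add_of_le hc
  have h2 : r ^ d ≤ (1 / 2 : ℝ) ^ d := pow_le_pow_left₀ h0 h1 d
  have h3 : (2 : ℝ) ^ m * (1 / 2 : ℝ) ^ m = 1 := by
    rw [← mul_pow]
    norm_num
  calc r ^ (m + d) = r ^ m * r ^ d := pow_add _ _ _
    _ ≤ r ^ m * (1 / 2 : ℝ) ^ d := mul_le_mul_of_nonneg_left h2 (by positivity)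
    _ = ((2 : ℝ) ^ m * (1 / 2 : ℝ) ^ m) * (r ^ m * (1 / 2 : ℝ) ^ d) := by rw [h3, one_mul]
    _ = 2 ^ m * r ^ m * (1 / 2 : ℝ) ^ (m + d) := by rw [pow_add]; ring

theorem Asymp_summable_half : Summable (fun c : ℕ+ => (1 / 2 : ℝ) ^ (c : ℕ)) :=
  (summable_geometric_of_lt_one (by norm_num) (by norm_num : (1 / 2 : ℝ) < 1)).comp_injective
    PNat.coe_injective

/-- summability and size of a partial series all of whose exponents are `≥ m`, `m ≥ 1`. -/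
theorem Asymp_tail (k : ℕ) (hk : 2 ≤ k) (m : ℕ) :
    ∃ K : ℝ, 0 ≤ K ∧ ∀ (t χ : ℂ) (P : ℕ+ → Prop) [DecidablePred P], ‖t‖ ≤ 1 / 2 → ‖χ‖ ≤ 1 →
      (∀ c : ℕ+, P c → m ≤ (c : ℕ)) →
      Summable (fun c : ℕ+ => if P c then Ek k (χ * t ^ (c : ℕ)) else 0) ∧
      ‖∑' c : ℕ+, if P c then Ek k (χ * t ^ (c : ℕ)) else 0‖ ≤ K * ‖t‖ ^ m := by
  obtain ⟨C₁, hC₁, hE⟩ := Asymp_Ek_le k hk
  refine ⟨C₁ * 2 ^ m * ∑' c : ℕ+, (1 / 2 : ℝ) ^ (c : ℕ),
    mul_nonneg (by positivity) (tsum_nonneg fun c => by positivity), ?_⟩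
  intro t χ P _ ht hχ hP
  have hb : ∀ c : ℕ+, ‖(if P c then Ek k (χ * t ^ (c : ℕ)) else 0 : ℂ)‖
      ≤ (C₁ * 2 ^ m * ‖t‖ ^ m) * (1 / 2 : ℝ) ^ (c : ℕ) := by
    intro c
    split_ifs with hc
    · have h1 : ‖χ * t ^ (c : ℕ)‖ ≤ ‖t‖ ^ (c : ℕ) := by
        rw [norm_mul, norm_pow]
        exact mul_le_of_le_one_left (by positivity) hχ
      have h2 : ‖t‖ ^ (c : ℕ) ≤ ‖t‖ :=
        pow_le_of_le_one (norm_nonneg _) (ht.trans (by norm_num)) c.pos.ne'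
      have h3 := hE _ (h1.trans (h2.trans ht))
      have h4 := Asymp_pow_le (norm_nonneg t) ht (hP c hc)
      calc ‖Ek k (χ * t ^ (c : ℕ))‖ ≤ C₁ * ‖χ * t ^ (c : ℕ)‖ := h3
        _ ≤ C₁ * (2 ^ m * ‖t‖ ^ m * (1 / 2 : ℝ) ^ (c : ℕ)) :=
            mul_le_mul_of_nonneg_left (h1.trans h4) hC₁
        _ = (C₁ * 2 ^ m * ‖t‖ ^ m) * (1 / 2 : ℝ) ^ (c : ℕ) := by ring
    · rw [norm_zero]
      positivity
  have hs := Asymp_summable_half.mul_left (C₁ * 2 ^ m * ‖t‖ ^ m)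
  refine ⟨Summable.of_norm_bounded hs hb, ?_⟩
  have h5 := tsum_of_norm_bounded (Asymp_summable_half.hasSum.mul_left (C₁ * 2 ^ m * ‖t‖ ^ m)) hb
  calc _ ≤ _ := h5
    _ = _ := by ring

theorem Asymp_eventually : ∀ᶠ t : ℂ in 𝓝[≠] 0, ‖t‖ ≤ 1 / 2 ∧ t ≠ 0 := by
  have h1 : ∀ᶠ t : ℂ in 𝓝 0, ‖t‖ < 1 / 2 := by
    have : Tendsto (fun t : ℂ => ‖t‖) (𝓝 0) (𝓝 0) := by
      simpa using (continuous_norm.tendsto (0 : ℂ))
    exact this.eventually (gt_mem_nhds (by norm_num))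
  filter_upwards [h1.filter_mono nhdsWithin_le_nhds, self_mem_nhdsWithin] with t h2 h3
  exact ⟨h2.le, h3⟩

theorem Asymp_tendsto_norm : Tendsto (fun t : ℂ => ‖t‖) (𝓝[≠] 0) (𝓝 0) := by
  have : Tendsto (fun t : ℂ => ‖t‖) (𝓝 0) (𝓝 0) := by
    simpa using (continuous_norm.tendsto (0 : ℂ))
  exact this.mono_left nhdsWithin_le_nhds

/-- a partial series all of whose exponents are `> μ` is `o(t^μ)`. -/
theorem Asymp_tendsto_zero (k : ℕ) (hk : 2 ≤ k) (μ : ℕ) (χ : ℂ) (hχ : ‖χ‖ ≤ 1) (P : ℕ+ → Prop)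
    [DecidablePred P] (hP : ∀ c : ℕ+, P c → μ + 1 ≤ (c : ℕ)) :
    Tendsto (fun t : ℂ => (∑' c : ℕ+, if P c then Ek k (χ * t ^ (c : ℕ)) else 0) / t ^ μ)
      (𝓝[≠] 0) (𝓝 0) := by
  obtain ⟨K, hK, hT⟩ := Asymp_tail k hk (μ + 1)
  refine squeeze_zero_norm' (a := fun t : ℂ => K * ‖t‖) ?_ ?_
  · filter_upwards [Asymp_eventually] with t ht
    have h1 := (hT t χ P ht.1 hχ hP).2
    have h2 : 0 < ‖t‖ ^ μ := pow_pos (norm_pos_iff.mpr ht.2) μ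
    rw [norm_div, norm_pow, div_le_iff₀ h2]
    calc _ ≤ _ := h1
      _ = _ := by rw [pow_succ]; ring
  · simpa using Asymp_tendsto_norm.const_mul K

/-- the leading term. -/
theorem Asymp_tendsto_lead (k : ℕ) (hk : 2 ≤ k) (μ : ℕ) (hμ : 1 ≤ μ) (χ : ℂ) (hχ : ‖χ‖ ≤ 1) :
    Tendsto (fun t : ℂ => Ek k (χ * t ^ μ) / t ^ μ) (𝓝[≠] 0) (𝓝 χ) := by
  obtain ⟨C, hC⟩ := exists_Ek_bound k hk
  rw [tendsto_iff_norm_sub_tendsto_zero]
  refine squeeze_zero' (g := fun t : ℂ => |C| * ‖t‖) ?_ ?_ ?_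
  · exact Eventually.of_forall fun t => norm_nonneg _
  · filter_upwards [Asymp_eventually] with t ht
    have ht0 : t ^ μ ≠ 0 := pow_ne_zero _ ht.2
    have h2 : 0 < ‖t‖ ^ μ := pow_pos (norm_pos_iff.mpr ht.2) μ
    have h1 : ‖χ * t ^ μ‖ ≤ ‖t‖ ^ μ := by
      rw [norm_mul, norm_pow]
      exact mul_le_of_le_one_left (by positivity) hχ
    have h3 : ‖t‖ ^ μ ≤ ‖t‖ :=
      pow_le_of_le_one (norm_nonneg _) (ht.1.trans (by norm_num)) (by omega)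
    have h4 := hC _ (h1.trans (h3.trans ht.1))
    have h5 : Ek k (χ * t ^ μ) / t ^ μ - χ = (Ek k (χ * t ^ μ) - χ * t ^ μ) / t ^ μ := by
      field_simp
    rw [h5, norm_div, norm_pow, div_le_iff₀ h2]
    calc ‖Ek k (χ * t ^ μ) - χ * t ^ μ‖ ≤ C * ‖χ * t ^ μ‖ ^ 2 := h4
      _ ≤ |C| * ‖χ * t ^ μ‖ ^ 2 := mul_le_mul_of_nonneg_right (le_abs_self C) (by positivity)
      _ ≤ |C| * (‖t‖ ^ μ) ^ 2 := by gcongr
      _ = |C| * ‖t‖ ^ μ * ‖t‖ ^ μ := by ring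
      _ ≤ |C| * ‖t‖ * ‖t‖ ^ μ := by gcongr
  · simpa using Asymp_tendsto_norm.const_mul |C|

/-- a partial series with lowest exponent `μ ≥ 1`. -/
theorem Asymp_tendsto_chi (k : ℕ) (hk : 2 ≤ k) (μ : ℕ) (hμ : 1 ≤ μ) (χ : ℂ) (hχ : ‖χ‖ ≤ 1)
    (P : ℕ+ → Prop) [DecidablePred P] (hPμ : P ⟨μ, hμ⟩)
    (hP : ∀ c : ℕ+, P c → (c : ℕ) ≠ μ → μ + 1 ≤ (c : ℕ)) :
    Tendsto (fun t : ℂ => (∑' c : ℕ+, if P c then Ek k (χ * t ^ (c : ℕ)) else 0) / t ^ μ)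
      (𝓝[≠] 0) (𝓝 χ) := by
  obtain ⟨K, hK, hT⟩ := Asymp_tail k hk 0
  have h1 := Asymp_tendsto_lead k hk μ hμ χ hχ
  have h2 := Asymp_tendsto_zero k hk μ χ hχ (fun c : ℕ+ => P c ∧ (c : ℕ) ≠ μ)
    (fun c hc => hP c hc.1 hc.2)
  have h3 := h1.add h2
  rw [add_zero] at h3
  refine h3.congr' ?_
  filter_upwards [Asymp_eventually] with t ht
  have hs := (hT t χ P ht.1 hχ (fun _ _ => Nat.zero_le _)).1
  rw [hs.tsum_eq_add_tsum_ite ⟨μ, hμ⟩, if_pos hPμ, add_div]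
  congr 2
  refine tsum_congr fun c => ?_
  by_cases hc : c = ⟨μ, hμ⟩
  · rw [if_pos hc, if_neg]
    rintro ⟨-, h⟩
    exact h (by rw [hc]; rfl)
  · have hc' : (c : ℕ) ≠ μ := fun h => hc (PNat.eq h)
    rw [if_neg hc]
    by_cases hp : P c
    · rw [if_pos hp, if_pos ⟨hp, hc'⟩]
    · rw [if_neg hp, if_neg (fun h => hp h.1)]


theorem Asymp_tendsto_tq (L : ℕ) [NeZero L] : Tendsto (tq L) atImInfty (𝓝[≠] 0) :=
  tendsto_nhdsWithin_iff.mpr ⟨tendsto_tq L, Eventually.of_forall fun z => tq_ne_zero L z⟩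

theorem Asymp_val_le {L : ℕ} [NeZero L] {α : ZMod L} {c : ℕ} (h : (c : ZMod L) = α) :
    α.val ≤ c := by
  rw [← h, ZMod.val_natCast]
  exact Nat.mod_le _ _

/-- assembling the two partial series. -/
theorem Asymp_tendsto_G (L : ℕ) [NeZero L] {k : ℕ} (hk : 3 ≤ k) (a b : ZMod L) (μ : ℕ)
    (hμ : a = 0 → μ = 0) (l₁ l₂ : ℂ)
    (h₁ : Tendsto (fun t : ℂ => (∑' c : ℕ+, if (((c : ℕ) : ℕ) : ZMod L) = a
      then Ek k (ZMod.stdAddChar b * t ^ (c : ℕ)) else 0) / t ^ μ) (𝓝[≠] 0) (𝓝 l₁))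
    (h₂ : Tendsto (fun t : ℂ => (∑' c : ℕ+, if (((c : ℕ) : ℕ) : ZMod L) = -a
      then Ek k (ZMod.stdAddChar (-b) * t ^ (c : ℕ)) else 0) / t ^ μ) (𝓝[≠] 0) (𝓝 l₂)) :
    Tendsto (fun z : ℍ => G L k ![a, b] z / tq L z ^ μ) atImInfty
      (𝓝 ((if a = 0 then Zc L k b else 0) + Ck L k * (l₁ + (-1) ^ k * l₂))) := by
  have h₁' := h₁.comp (Asymp_tendsto_tq L)
  have h₂' := h₂.comp (Asymp_tendsto_tq L)
  have h3 := (tendsto_const_nhds (x := (if a = 0 then Zc L k b else 0 : ℂ))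
    (f := atImInfty)).add ((h₁'.add (h₂'.const_mul ((-1) ^ k))).const_mul (Ck L k))
  refine h3.congr fun z => ?_
  rw [G_eq L hk a b z]
  simp only [Function.comp_apply]
  have h4 : (if a = 0 then Zc L k b else 0 : ℂ) / tq L z ^ μ = if a = 0 then Zc L k b else 0 := by
    by_cases ha : a = 0
    · rw [hμ ha, pow_zero, div_one]
    · rw [if_neg ha, zero_div]
  rw [add_div, h4]
  ring

/-- **Leading term.**  From `G_eq`.  If `a ≠ 0` (`L` odd, so `a.val ≠ L - a.val`) exactly one of the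
two series contains the exponent `c = mu L a`, all other exponents are `> mu L a`; with
`exists_Ek_bound`: `G / t^mu → Ck * χ(b)` resp. `Ck * (-1)^k * χ(-b)`, non zero.
If `a = 0`: `mu = 0`, all exponents are `≥ L ≥ 1`, the limit is `Zc L k b`. -/
theorem tendsto_G_div (L : ℕ) [NeZero L] (hL : Odd L) {k : ℕ} (hk : 3 ≤ k) (a b : ZMod L) :
    ∃ c : ℂ, Tendsto (fun z : ℍ => G L k ![a, b] z / tq L z ^ mu L a) atImInfty (𝓝 c) ∧
      (a ≠ 0 → c ≠ 0) ∧ (a = 0 → c = Zc L k b) := by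
  have hk2 : 2 ≤ k := by omega
  have hχ : ∀ x : ZMod L, ‖(ZMod.stdAddChar x : ℂ)‖ = 1 := fun x => AddChar.norm_apply _ _
  have hχ0 : ∀ x : ZMod L, (ZMod.stdAddChar x : ℂ) ≠ 0 := fun x h => by
    have := hχ x
    rw [h, norm_zero] at this
    exact zero_ne_one this
  by_cases ha : a = 0
  · have hmu : mu L a = 0 := by rw [ha, mu, ZMod.val_zero, Nat.zero_min]
    have h₁ := Asymp_tendsto_zero k hk2 (mu L a) (ZMod.stdAddChar b) (hχ b).le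
      (fun c : ℕ+ => (((c : ℕ) : ℕ) : ZMod L) = a) (fun c _ => by rw [hmu]; exact c.pos)
    have h₂ := Asymp_tendsto_zero k hk2 (mu L a) (ZMod.stdAddChar (-b)) (hχ (-b)).le
      (fun c : ℕ+ => (((c : ℕ) : ℕ) : ZMod L) = -a) (fun c _ => by rw [hmu]; exact c.pos)
    refine ⟨_, Asymp_tendsto_G L hk a b (mu L a) (fun _ => hmu) 0 0 h₁ h₂,
      fun h => absurd ha h, fun _ => ?_⟩
    rw [if_pos ha]
    ring
  · have hav : a.val ≠ 0 := (ZMod.val_ne_zero a).mpr ha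
    have hlt : a.val < L := a.val_lt
    have hneg : (-a).val = L - a.val := by
      have : NeZero a := ⟨ha⟩
      exact ZMod.val_neg_of_ne_zero a
    have hne : a.val ≠ L - a.val := by
      intro h
      obtain ⟨m, hm⟩ := hL
      omega
    rcases lt_or_gt_of_ne hne with hlt2 | hlt2
    · have hmu : mu L a = a.val := by rw [mu]; omega
      have h₁ := Asymp_tendsto_chi k hk2 (mu L a) (by omega) (ZMod.stdAddChar b) (hχ b).le
        (fun c : ℕ+ => (((c : ℕ) : ℕ) : ZMod L) = a)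
        (by
          show ((mu L a : ℕ) : ZMod L) = a
          rw [hmu, ZMod.natCast_zmod_val])
        (fun c hc hne' => by
          have := Asymp_val_le hc
          omega)
      have h₂ := Asymp_tendsto_zero k hk2 (mu L a) (ZMod.stdAddChar (-b)) (hχ (-b)).le
        (fun c : ℕ+ => (((c : ℕ) : ℕ) : ZMod L) = -a) (fun c hc => by
          have := Asymp_val_le hc
          omega)
      refine ⟨_, Asymp_tendsto_G L hk a b (mu L a) (fun h => absurd h ha) _ _ h₁ h₂,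
        fun _ => ?_, fun h => absurd h ha⟩
      rw [if_neg ha, zero_add, mul_zero, add_zero]
      exact mul_ne_zero (Ck_ne_zero L k) (hχ0 b)
    · have hmu : mu L a = (-a).val := by rw [mu]; omega
      have h₁ := Asymp_tendsto_zero k hk2 (mu L a) (ZMod.stdAddChar b) (hχ b).le
        (fun c : ℕ+ => (((c : ℕ) : ℕ) : ZMod L) = a) (fun c hc => by
          have := Asymp_val_le hc
          omega)
      have h₂ := Asymp_tendsto_chi k hk2 (mu L a) (by omega) (ZMod.stdAddChar (-b)) (hχ (-b)).le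
        (fun c : ℕ+ => (((c : ℕ) : ℕ) : ZMod L) = -a)
        (by
          show ((mu L a : ℕ) : ZMod L) = -a
          rw [hmu, ZMod.natCast_zmod_val])
        (fun c hc hne' => by
          have := Asymp_val_le hc
          omega)
      refine ⟨_, Asymp_tendsto_G L hk a b (mu L a) (fun h => absurd h ha) _ _ h₁ h₂,
        fun _ => ?_, fun h => absurd h ha⟩
      rw [if_neg ha, zero_add, zero_add]
      exact mul_ne_zero (Ck_ne_zero L k)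
        (mul_ne_zero (pow_ne_zero _ (neg_ne_zero.mpr one_ne_zero)) (hχ0 (-b)))

theorem Asymp_sum_zmod (L : ℕ) [NeZero L] (F : ℕ → ℕ) :
    ∑ x : ZMod L, F x.val = ∑ j ∈ Finset.range L, F j := by
  symm
  refine Finset.sum_nbij' (fun j : ℕ ↦ (j : ZMod L)) (fun x : ZMod L ↦ x.val)
    (fun _ _ ↦ Finset.mem_univ _)
    (fun x _ ↦ Finset.mem_range.mpr x.val_lt) (fun j hj ↦ ?_) (fun x _ ↦ ?_) (fun j hj ↦ ?_)
  · exact ZMod.val_cast_of_lt (Finset.mem_range.mp hj)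
  · exact ZMod.natCast_zmod_val x
  · rw [ZMod.val_cast_of_lt (Finset.mem_range.mp hj)]

theorem Asymp_sum_sub (m : ℕ) : 2 * ∑ i ∈ Finset.range m, (m - i) = m * (m + 1) := by
  induction m with
  | zero => simp
  | succ m ih =>
    rw [Finset.sum_range_succ']
    have : ∑ i ∈ Finset.range m, (m + 1 - (i + 1)) = ∑ i ∈ Finset.range m, (m - i) :=
      Finset.sum_congr rfl fun i _ => by omega
    rw [this, mul_add, ih]
    simp only [Nat.sub_zero]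
    ring

/-- `∑_a min(a, L - a) = (L² - 1)/4` for odd `L`. -/
theorem sum_mu (L : ℕ) [NeZero L] (hL : Odd L) : 4 * ∑ a : ZMod L, mu L a = L ^ 2 - 1 := by
  obtain ⟨m, rfl⟩ := hL
  have h0 : ∑ a : ZMod (2 * m + 1), mu (2 * m + 1) a
      = ∑ j ∈ Finset.range (2 * m + 1), min j (2 * m + 1 - j) :=
    Asymp_sum_zmod (2 * m + 1) (fun j => min j (2 * m + 1 - j))
  have h1 : 2 * m + 1 = (m + 1) + m := by ring
  have h2 : ∑ j ∈ Finset.range (m + 1), min j (2 * m + 1 - j) = ∑ j ∈ Finset.range (m + 1), j :=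
    Finset.sum_congr rfl fun j hj => by
      have := Finset.mem_range.mp hj
      omega
  have h3 : ∑ j ∈ Finset.range m, min (m + 1 + j) (2 * m + 1 - (m + 1 + j))
      = ∑ j ∈ Finset.range m, (m - j) :=
    Finset.sum_congr rfl fun j hj => by
      have := Finset.mem_range.mp hj
      omega
  have h4 := Finset.sum_range_id_mul_two (m + 1)
  have h5 := Asymp_sum_sub m
  have h6 : ∑ j ∈ Finset.range (2 * m + 1), min j (2 * m + 1 - j)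
      = ∑ j ∈ Finset.range (m + 1), j + ∑ j ∈ Finset.range m, (m - j) := by
    conv_lhs => rw [show Finset.range (2 * m + 1) = Finset.range ((m + 1) + m) by rw [h1]]
    rw [Finset.sum_range_add, h2, h3]
  rw [h0, h6]
  simp only [Nat.add_sub_cancel] at h4
  have h7 : (2 * m + 1) ^ 2 = 4 * (m * (m + 1)) + 1 := by ring
  rw [h7, Nat.add_sub_cancel]
  nlinarith [h4, h5]

end

end Fermat.Agent.S48.WT1
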