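import Mathlib

set_option autoImplicit false

/-!
# S48 / WT1 : reduction data

A `RedDatum κ` is a local subring `R ⊆ ℂ` with a ring homomorphism `red : R → κ` to a field
(in the application `R = ι(A)`, `A` a valuation subring of `ℚ̄`, `κ` its residue field).
`D.Red x y` means: `x ∈ R` and `red x = y`.
-/

namespace Fermat.Agent.S48.WT1

/-- a "local" subring of `ℂ` with a reduction map to a field. -/
structure RedDatum (κ : Type*) [Field κ] where
  /-- the subring -/
  R : Subring ℂ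
  /-- the reduction map -/
  red : R →+* κ
  /-- elements with non zero reduction are units of `R` -/
  loc : ∀ x : R, red x ≠ 0 → ((x : ℂ)⁻¹) ∈ R

namespace RedDatum

variable {κ : Type*} [Field κ] (D : RedDatum κ)

/-- `x ∈ R` and `red x = y`. -/
def Red (x : ℂ) (y : κ) : Prop := ∃ h : x ∈ D.R, D.red ⟨x, h⟩ = y

variable {D} {x x' : ℂ} {y y' : κ}

theorem Red.mem (h : D.Red x y) : x ∈ D.R := h.1

theorem Red.unique (h : D.Red x y) (h' : D.Red x y') : y = y' := by
  obtain ⟨h1, rfl⟩ := h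
  obtain ⟨h2, rfl⟩ := h'
  rfl

theorem red_of_mem (h : x ∈ D.R) : D.Red x (D.red ⟨x, h⟩) := ⟨h, rfl⟩

theorem Red.zero : D.Red 0 0 := ⟨D.R.zero_mem, map_zero D.red⟩

theorem Red.one : D.Red 1 1 := ⟨D.R.one_mem, map_one D.red⟩

theorem Red.add (h : D.Red x y) (h' : D.Red x' y') : D.Red (x + x') (y + y') := by
  obtain ⟨h1, rfl⟩ := h
  obtain ⟨h2, rfl⟩ := h'
  exact ⟨D.R.add_mem h1 h2, map_add D.red ⟨x, h1⟩ ⟨x', h2⟩⟩

theorem Red.mul (h : D.Red x y) (h' : D.Red x' y') : D.Red (x * x') (y * y') := by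
  obtain ⟨h1, rfl⟩ := h
  obtain ⟨h2, rfl⟩ := h'
  exact ⟨D.R.mul_mem h1 h2, map_mul D.red ⟨x, h1⟩ ⟨x', h2⟩⟩

theorem Red.neg (h : D.Red x y) : D.Red (-x) (-y) := by
  obtain ⟨h1, rfl⟩ := h
  exact ⟨D.R.neg_mem h1, map_neg D.red ⟨x, h1⟩⟩

theorem Red.sub (h : D.Red x y) (h' : D.Red x' y') : D.Red (x - x') (y - y') := by
  rw [sub_eq_add_neg, sub_eq_add_neg]
  exact h.add h'.neg

theorem Red.pow (h : D.Red x y) (n : ℕ) : D.Red (x ^ n) (y ^ n) := by
  induction n with
  | zero => simpa using Red.one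
  | succ n ih => rw [pow_succ, pow_succ]; exact ih.mul h

theorem Red.natCast (n : ℕ) : D.Red (n : ℂ) (n : κ) := by
  induction n with
  | zero => simpa using Red.zero
  | succ n ih => push_cast; exact ih.add Red.one

theorem Red.intCast (n : ℤ) : D.Red (n : ℂ) (n : κ) := by
  cases n with
  | ofNat n => simpa using Red.natCast n
  | negSucc n =>
    rw [Int.cast_negSucc, Int.cast_negSucc]
    exact (Red.natCast (n + 1)).neg

theorem Red.sum {ι : Type*} (s : Finset ι) {f : ι → ℂ} {g : ι → κ}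
    (h : ∀ i ∈ s, D.Red (f i) (g i)) : D.Red (∑ i ∈ s, f i) (∑ i ∈ s, g i) := by
  classical
  induction s using Finset.induction_on with
  | empty => simpa using Red.zero
  | insert a s ha ih =>
    rw [Finset.sum_insert ha, Finset.sum_insert ha]
    exact (h a (Finset.mem_insert_self a s)).add
      (ih fun i hi => h i (Finset.mem_insert_of_mem hi))

theorem Red.inv (h : D.Red x y) (hy : y ≠ 0) : D.Red x⁻¹ y⁻¹ := by
  obtain ⟨h1, rfl⟩ := h
  have h2 := D.loc ⟨x, h1⟩ hy
  refine ⟨h2, ?_⟩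
  have hx : x ≠ 0 := by
    rintro rfl
    exact hy (map_zero D.red)
  have h3 : (⟨x, h1⟩ : D.R) * ⟨x⁻¹, h2⟩ = 1 := Subtype.ext (mul_inv_cancel₀ hx)
  have h4 := congrArg D.red h3
  rw [map_mul, map_one] at h4
  exact eq_inv_of_mul_eq_one_right h4

theorem Red.div (h : D.Red x y) (h' : D.Red x' y') (hy : y' ≠ 0) : D.Red (x / x') (y / y') := by
  rw [div_eq_mul_inv, div_eq_mul_inv]
  exact h.mul (h'.inv hy)

theorem Red.congr (h : D.Red x y) (hx : x = x') (hy : y = y') : D.Red x' y' := hx ▸ hy ▸ h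

/-- an `ℓ`-th root of unity reduces to `1` in characteristic `ℓ`. -/
theorem red_one_of_pow_eq_one {ℓ : ℕ} (hℓ : ℓ.Prime) (hchar : (ℓ : κ) = 0) (hx : x ∈ D.R)
    (h : x ^ ℓ = 1) : D.Red x 1 := by
  have : CharP κ ℓ := (CharP.charP_iff_prime_eq_zero hℓ).2 hchar
  have : Fact ℓ.Prime := ⟨hℓ⟩
  refine ⟨hx, ?_⟩
  have h1 : D.red ⟨x, hx⟩ ^ ℓ = 1 := by
    rw [← map_pow, ← map_one D.red]
    exact congrArg D.red (Subtype.ext h)
  have h2 : (D.red ⟨x, hx⟩ - 1) ^ ℓ = 0 := by rw [sub_pow_char, h1, one_pow, sub_self]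
  exact sub_eq_zero.1 (pow_eq_zero_iff hℓ.ne_zero |>.1 h2)

/-- division of power series `≡ 1`. -/
theorem red_coeff_of_mul_eq {X A B : PowerSeries ℂ} (hA0 : PowerSeries.coeff 0 A = 1)
    (hA : ∀ n, D.Red (PowerSeries.coeff n A) (if n = 0 then 1 else 0))
    (hB : ∀ n, D.Red (PowerSeries.coeff n B) (if n = 0 then 1 else 0)) (h : X * A = B) (n : ℕ) :
    D.Red (PowerSeries.coeff n X) (if n = 0 then 1 else 0) := by
  induction n using Nat.strong_induction_on with
  | _ n ih =>
    have hne : ∀ p ∈ (Finset.HasAntidiagonal.antidiagonal n).erase (n, 0), p.1 < n ∧ p.2 ≠ 0 := by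
      intro p hp
      rw [Finset.mem_erase, Finset.HasAntidiagonal.mem_antidiagonal] at hp
      have h2 : p.2 ≠ 0 := by
        intro h0
        apply hp.1
        ext
        · show p.1 = n
          omega
        · exact h0
      exact ⟨by omega, h2⟩
    have h1 : PowerSeries.coeff n B = ∑ p ∈ Finset.HasAntidiagonal.antidiagonal n,
        PowerSeries.coeff p.1 X * PowerSeries.coeff p.2 A := by
      rw [← h, PowerSeries.coeff_mul]
    have hmem : (n, 0) ∈ Finset.HasAntidiagonal.antidiagonal n := by simp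
    rw [← Finset.add_sum_erase _ _ hmem] at h1
    simp only [hA0, mul_one] at h1
    have h2 : PowerSeries.coeff n X = PowerSeries.coeff n B -
        ∑ p ∈ (Finset.HasAntidiagonal.antidiagonal n).erase (n, 0),
          PowerSeries.coeff p.1 X * PowerSeries.coeff p.2 A := by
      rw [h1]
      ring
    have h3 : D.Red (∑ p ∈ (Finset.HasAntidiagonal.antidiagonal n).erase (n, 0),
          PowerSeries.coeff p.1 X * PowerSeries.coeff p.2 A)
        (∑ p ∈ (Finset.HasAntidiagonal.antidiagonal n).erase (n, 0),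
          (if p.1 = 0 then 1 else 0) * (if p.2 = 0 then 1 else 0)) :=
      Red.sum _ fun p hp => (ih p.1 (hne p hp).1).mul (hA p.2)
    have h4 : (∑ p ∈ (Finset.HasAntidiagonal.antidiagonal n).erase (n, 0),
          (if p.1 = 0 then 1 else 0) * (if p.2 = 0 then 1 else 0) : κ) = 0 :=
      Finset.sum_eq_zero fun p hp => by rw [if_neg (hne p hp).2, mul_zero]
    rw [h2]
    exact ((hB n).sub h3).congr rfl (by rw [h4, sub_zero])

/-- product of a power series with a power series `≡ 1`. -/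
theorem red_coeff_mul {X A : PowerSeries ℂ} {a : ℕ → κ}
    (hX : ∀ n, D.Red (PowerSeries.coeff n X) (a n))
    (hA : ∀ n, D.Red (PowerSeries.coeff n A) (if n = 0 then 1 else 0)) (n : ℕ) :
    D.Red (PowerSeries.coeff n (X * A)) (a n) := by
  rw [PowerSeries.coeff_mul]
  have h1 : D.Red (∑ p ∈ Finset.HasAntidiagonal.antidiagonal n,
        PowerSeries.coeff p.1 X * PowerSeries.coeff p.2 A)
      (∑ p ∈ Finset.HasAntidiagonal.antidiagonal n, a p.1 * (if p.2 = 0 then 1 else 0)) :=
    Red.sum _ fun p _ => (hX p.1).mul (hA p.2)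
  refine h1.congr rfl ?_
  rw [Finset.sum_eq_single (n, 0)]
  · simp
  · intro p hp hpn
    rw [Finset.HasAntidiagonal.mem_antidiagonal] at hp
    have h2 : p.2 ≠ 0 := by
      intro h0
      apply hpn
      ext
      · show p.1 = n
        omega
      · exact h0
    rw [if_neg h2, mul_zero]
  · intro hn
    exact absurd (by simp) hn

end RedDatum

end Fermat.Agent.S48.WT1
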