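import Fermat.Agent.S48.HK.Hecke
import Fermat.Agent.S48.WT1.Red

set_option autoImplicit false

/-!
# S48 / WT1 : a form all of whose diamond translates are `≡ χ(d) ∑ a_n q^n mod λ`
makes the eigensystem `(a_p, χ(d))` occur
-/

namespace Fermat.Agent.S48.WT1

open UpperHalfPlane ModularForm CongruenceSubgroup ModularFormClass
open Fermat.Agent.S48.HK
open scoped MatrixGroups Manifold ModularForm

noncomputable section

variable {κ : Type*} [Field κ] (D : RedDatum κ) {M : ℕ} [NeZero M]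

/-- the class `𝒢(c)`: all `⟨d⟩ h` have `λ`-integral `q`-expansion `≡ c χ(d) ∑ a_n q^n`. -/
def InClass (a : ℕ → κ) (χ : (ZMod M)ˣ → κ) (c : κ) (h : CuspForm (Gamma1 M) 2) : Prop :=
  ∀ (d : (ZMod M)ˣ) (n : ℕ), D.Red (qCoeff (diamond 2 d h) n) (c * χ d * a n)

variable {D} {a : ℕ → κ} {χ : (ZMod M)ˣ → κ}

theorem InClass.add {c c' : κ} {h h' : CuspForm (Gamma1 M) 2} (H : InClass D a χ c h)
    (H' : InClass D a χ c' h') : InClass D a χ (c + c') (h + h') := by
  intro d n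
  rw [map_add, qCoeff_add]
  exact ((H d n).add (H' d n)).congr rfl (by ring)

theorem InClass.int_smul {c : κ} {h : CuspForm (Gamma1 M) 2} (H : InClass D a χ c h) (r : ℤ) :
    InClass D a χ ((r : κ) * c) ((r : ℂ) • h) := by
  intro d n
  rw [map_smul, qCoeff_smul]
  exact ((RedDatum.Red.intCast r).mul (H d n)).congr rfl (by ring)

theorem InClass.diamond (hχ : ∀ d d', χ (d * d') = χ d * χ d') {c : κ}
    {h : CuspForm (Gamma1 M) 2} (H : InClass D a χ c h) (d : (ZMod M)ˣ) :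
    InClass D a χ (χ d * c) (diamond 2 d h) := by
  intro d' n
  rw [← LinearMap.comp_apply, ← diamond_mul]
  exact (H (d' * d) n).congr rfl (by rw [hχ]; ring)

/-- `⟨d⟩ T_p h = T_p ⟨d⟩ h` has coefficients `a_{pn}(⟨d⟩h) + p a_{n/p}(⟨p d⟩ h)`
(`diamond_heckeT`, `qCoeff_heckeT`, `diamond_mul`). -/
theorem InClass.heckeT (hχ : ∀ d d', χ (d * d') = χ d * χ d')
    (hrel : ∀ (p : GoodPrime M) (n : ℕ),
      a (p.1 * n) + (p.1 : κ) * χ p.unit * (if p.1 ∣ n then a (n / p.1) else 0) = a p.1 * a n)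
    {c : κ} {h : CuspForm (Gamma1 M) 2} (H : InClass D a χ c h) (p : GoodPrime M) :
    InClass D a χ (a p.1 * c) (heckeT 2 p h) := by
  intro d n
  have e1 : HK.diamond 2 d (HK.heckeT 2 p h) = HK.heckeT 2 p (HK.diamond 2 d h) :=
    LinearMap.congr_fun (diamond_heckeT 2 d p) h
  have e2 : HK.diamond 2 p.unit (HK.diamond 2 d h) = HK.diamond 2 (p.unit * d) h := by
    rw [← LinearMap.comp_apply, ← diamond_mul]
  have e3 : ((p.1 : ℂ)) ^ ((2 : ℤ) - 1) = (p.1 : ℂ) := by norm_num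
  rw [e1, HK.qCoeff_heckeT, e2, e3]
  have h1 : D.Red (if p.1 ∣ n then qCoeff (HK.diamond 2 (p.unit * d) h) (n / p.1) else 0)
      (if p.1 ∣ n then c * χ (p.unit * d) * a (n / p.1) else 0) := by
    split_ifs
    · exact H _ _
    · exact RedDatum.Red.zero
  refine ((H d (p.1 * n)).add ((RedDatum.Red.natCast p.1).mul h1)).congr rfl ?_
  have e4 : a p.1 * c * χ d * a n = c * χ d * (a p.1 * a n) := by ring
  rw [e4, ← hrel p n, hχ]
  split_ifs <;> ring

/-- induction on `P` (`FreeAlgebra.induction`). -/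
theorem InClass.opPoly (hχ : ∀ d d', χ (d * d') = χ d * χ d')
    (hrel : ∀ (p : GoodPrime M) (n : ℕ),
      a (p.1 * n) + (p.1 : κ) * χ p.unit * (if p.1 ∣ n then a (n / p.1) else 0) = a p.1 * a n)
    (P : FreeAlgebra ℤ (Idx M)) {c : κ} {h : CuspForm (Gamma1 M) 2} (H : InClass D a χ c h) :
    InClass D a χ (FreeAlgebra.lift ℤ (Sum.elim (fun p : GoodPrime M => a p.1) χ) P * c)
      (opPoly 2 P h) := by
  induction P using FreeAlgebra.induction generalizing c h with
  | grade0 r =>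
    have e1 : HK.opPoly (M := M) 2 (algebraMap ℤ (FreeAlgebra ℤ (Idx M)) r) h = (r : ℂ) • h := by
      rw [AlgHom.commutes, Module.algebraMap_end_apply, Int.cast_smul_eq_zsmul]
    rw [e1, AlgHom.commutes]
    exact H.int_smul r
  | grade1 i =>
    rw [FreeAlgebra.lift_ι_apply]
    have e1 : HK.opPoly (M := M) 2 (FreeAlgebra.ι ℤ i) = op 2 i := FreeAlgebra.lift_ι_apply _ _
    rw [e1]
    rcases i with p | d
    · exact H.heckeT hχ hrel p
    · exact H.diamond hχ d
  | mul P Q hP hQ =>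
    rw [map_mul, map_mul, Module.End.mul_apply, mul_assoc]
    exact hP (hQ H)
  | add P Q hP hQ =>
    rw [map_add, map_add, LinearMap.add_apply, add_mul]
    exact (hP H).add (hQ H)

/-- **The eigensystem occurs.**  If `P` kills `S₂(Γ₁(M))` then `0 ∈ 𝒢(θ(P))`; look at the
coefficient `n = 1`, `d = 1`. -/
theorem occurs_of_inClass (hχ : ∀ d d', χ (d * d') = χ d * χ d') (hχ1 : χ 1 = 1) (ha1 : a 1 = 1)
    (hrel : ∀ (p : GoodPrime M) (n : ℕ),
      a (p.1 * n) + (p.1 : κ) * χ p.unit * (if p.1 ∣ n then a (n / p.1) else 0) = a p.1 * a n)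
    {h : CuspForm (Gamma1 M) 2} (H : InClass D a χ 1 h) :
    Occurs M 2 (Sum.elim (fun p : GoodPrime M => a p.1) χ) := by
  intro P hP
  have h1 := InClass.opPoly hχ hrel P H 1 1
  have e0 : qCoeff (⇑(0 : CuspForm (Gamma1 M) 2)) 1 = 0 := by
    have := qCoeff_smul (0 : ℂ) h 1
    rwa [zero_smul, zero_mul] at this
  rw [hP, LinearMap.zero_apply, map_zero, e0, hχ1, ha1, mul_one, mul_one, mul_one] at h1
  exact h1.unique RedDatum.Red.zero

end

end Fermat.Agent.S48.WT1
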