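import Fermat.Agent.S48.WT1.Lipschitz
import Fermat.Agent.Lib.IS.Nice
import Fermat.Prelude.Def_FLTPrelim_Modularity

set_option autoImplicit false

/-!
# S48 / WT1 : the `q`-expansion of `G_{k,(0,b)}`
-/

namespace Fermat.Agent.S48.WT1

open UpperHalfPlane ModularForm EisensteinSeries Matrix Filter Topology Complex
open Fermat.Agent.Lib.IS
open scoped MatrixGroups Manifold ModularForm Real

noncomputable section

theorem G_nice (L : ℕ) {k : ℤ} (hk : 3 ≤ k) (b : ZMod L) : Nice (G L k ![0, b]) :=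
  ⟨G_periodic L k b, G_mdiff L hk _, G_bdd L hk _⟩

/-- `s_k(m) = ∑_{n ∣ m} n^(k-1) (ζ^(bn) + (-1)^k ζ^(-bn))`. -/
def sG (L : ℕ) [NeZero L] (k : ℕ) (b : ZMod L) (m : ℕ) : ℂ :=
  ∑ n ∈ m.divisors, (n : ℂ) ^ (k - 1) *
    (ZMod.stdAddChar (b * (n : ZMod L)) + (-1) ^ k * ZMod.stdAddChar (-(b * (n : ZMod L))))

/-- the `q`-expansion coefficients of `G_{k,(0,b)}`. -/
def coefG (L : ℕ) [NeZero L] (k : ℕ) (b : ZMod L) (m : ℕ) : ℂ :=
  if m = 0 then Zc L k b else Ck L k * sG L k b m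

/-- twisted divisor sums. -/
theorem QExp_hasSum_twisted (κ : ℕ) {r : ℂ} (hr : ‖r‖ < 1) (u : ℕ → ℂ) (hu : ∀ n, ‖u n‖ ≤ 1) :
    HasSum (fun e : ℕ+ => (∑ n ∈ (e : ℕ).divisors, (n : ℂ) ^ κ * u n) * r ^ (e : ℕ))
      (∑' d : ℕ+, ∑' c : ℕ+, ((c : ℕ) : ℂ) ^ κ * u c * r ^ ((d : ℕ) * (c : ℕ))) := by
  set F : ℕ+ × ℕ+ → ℂ := fun x => ((x.2 : ℕ) : ℂ) ^ κ * u x.2 * r ^ ((x.1 : ℕ) * (x.2 : ℕ)) with hF
  have hsum : Summable F := by
    refine Summable.of_norm_bounded (g := fun c : ℕ+ × ℕ+ => ‖((c.2 : ℕ) : ℂ) ^ κ * (r ^ (c.1 * c.2 : ℕ))‖)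
      (summable_prod_mul_pow κ hr).norm ?_
    intro x
    rw [hF]
    simp only [norm_mul]
    calc ‖((x.2 : ℕ) : ℂ) ^ κ‖ * ‖u x.2‖ * ‖r ^ ((x.1 : ℕ) * (x.2 : ℕ))‖
        ≤ ‖((x.2 : ℕ) : ℂ) ^ κ‖ * 1 * ‖r ^ ((x.1 : ℕ) * (x.2 : ℕ))‖ := by
          gcongr
          exact hu _
      _ = _ := by rw [mul_one]
  have h1 : HasSum F (∑' d : ℕ+, ∑' c : ℕ+, F (d, c)) := by
    rw [← hsum.tsum_prod]
    exact hsum.hasSum
  have h2 := (sigmaAntidiagonalEquivProd.hasSum_iff (f := F)).2 h1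
  have h3 := h2.sigma (g := fun e : ℕ+ =>
    (∑ n ∈ (e : ℕ).divisors, (n : ℂ) ^ κ * u n) * r ^ (e : ℕ)) ?_
  · exact h3
  · intro e
    have h4 := hasSum_fintype (fun x : (e : ℕ).divisorsAntidiagonal =>
      (F ∘ sigmaAntidiagonalEquivProd) ⟨e, x⟩)
    convert h4 using 1
    rw [Finset.univ_eq_attach]
    have h5 : ∀ x : (e : ℕ).divisorsAntidiagonal, (F ∘ sigmaAntidiagonalEquivProd) ⟨e, x⟩ =
        (fun y : ℕ × ℕ => (y.2 : ℂ) ^ κ * u y.2 * r ^ (y.1 * y.2)) x.1 := fun x => rfl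
    simp only [h5]
    rw [(e : ℕ).divisorsAntidiagonal.sum_attach
      (fun y : ℕ × ℕ => (y.2 : ℂ) ^ κ * u y.2 * r ^ (y.1 * y.2)),
      Nat.sum_divisorsAntidiagonal' (fun a b => (b : ℂ) ^ κ * u b * r ^ (a * b)), Finset.sum_mul]
    refine Finset.sum_congr rfl fun i hi => ?_
    rw [Nat.div_mul_cancel (Nat.dvd_of_mem_divisors hi)]

theorem QExp_Ek_eq {k : ℕ} (hk : 2 ≤ k) (x : ℂ) :
    Ek k x = ∑' n : ℕ+, ((n : ℕ) : ℂ) ^ (k - 1) * x ^ (n : ℕ) := by
  rw [Ek]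
  symm
  refine Function.Injective.tsum_eq (f := fun n : ℕ => (n : ℂ) ^ (k - 1) * x ^ n)
    PNat.coe_injective ?_
  intro n hn
  rw [Function.mem_support] at hn
  have hn0 : n ≠ 0 := by
    rintro rfl
    apply hn
    rw [Nat.cast_zero, zero_pow (by omega), zero_mul]
  exact ⟨⟨n, Nat.pos_of_ne_zero hn0⟩, rfl⟩

theorem QExp_tq_pow_mul (L : ℕ) [NeZero L] (z : ℍ) (d : ℕ) :
    tq L z ^ (L * d) = Function.Periodic.qParam 1 z ^ d := by
  rw [pow_mul, tq_pow, Function.Periodic.qParam]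
  simp

/-- the sum over the multiples of `L`. -/
theorem QExp_tsum_dvd (L : ℕ) [NeZero L] (f : ℕ → ℂ) :
    (∑' c : ℕ+, if (((c : ℕ) : ℕ) : ZMod L) = 0 then f c else 0) = ∑' d : ℕ+, f (L * d) := by
  have hL : 0 < L := Nat.pos_of_ne_zero (NeZero.ne L)
  let g : ℕ+ → ℕ+ := fun d => ⟨L * d, Nat.mul_pos hL d.pos⟩
  have hg : Function.Injective g := by
    intro a b hab
    have h1 : L * (a : ℕ) = L * (b : ℕ) := congrArg PNat.val hab
    exact PNat.coe_injective (Nat.eq_of_mul_eq_mul_left hL h1)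
  rw [← hg.tsum_eq]
  · refine tsum_congr fun d => ?_
    have : (((g d : ℕ+) : ℕ) : ZMod L) = 0 := by
      show ((L * (d : ℕ) : ℕ) : ZMod L) = 0
      rw [Nat.cast_mul, ZMod.natCast_self, zero_mul]
    rw [if_pos this]
    rfl
  · intro c hc
    rw [Function.mem_support] at hc
    have h0 : (((c : ℕ) : ℕ) : ZMod L) = 0 := by
      by_contra h
      exact hc (if_neg h)
    rw [ZMod.natCast_eq_zero_iff] at h0
    obtain ⟨d, hd⟩ := h0
    have hd0 : 0 < d := by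
      rcases Nat.eq_zero_or_pos d with rfl | h
      · rw [mul_zero] at hd
        exact absurd hd c.pos.ne'
      · exact h
    exact ⟨⟨d, hd0⟩, PNat.coe_injective hd.symm⟩

theorem QExp_half (L : ℕ) [NeZero L] {k : ℕ} (hk : 3 ≤ k) (b : ZMod L) (z : ℍ) :
    HasSum (fun e : ℕ+ => (∑ n ∈ (e : ℕ).divisors, (n : ℂ) ^ (k - 1) *
        ZMod.stdAddChar (b * (n : ZMod L))) * Function.Periodic.qParam 1 z ^ (e : ℕ))
      (∑' c : ℕ+, if (((c : ℕ) : ℕ) : ZMod L) = 0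
          then Ek k (ZMod.stdAddChar b * tq L z ^ (c : ℕ)) else 0) := by
  have hr : ‖Function.Periodic.qParam 1 z‖ < 1 := by
    have := UpperHalfPlane.norm_qParam_lt_one 1 z
    simpa using this
  have h := QExp_hasSum_twisted (k - 1) hr (fun n => ZMod.stdAddChar (b * (n : ZMod L)))
    (fun n => (AddChar.norm_apply _ _).le)
  convert h using 1
  rw [QExp_tsum_dvd L (fun c => Ek k (ZMod.stdAddChar b * tq L z ^ c))]
  refine tsum_congr fun d => ?_
  rw [QExp_Ek_eq (by omega), QExp_tq_pow_mul]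
  refine tsum_congr fun n => ?_
  rw [mul_pow, ← pow_mul, ← AddChar.map_nsmul_eq_pow, nsmul_eq_mul, mul_comm ((n : ℕ) : ZMod L) b,
    mul_assoc]

/-- From `G_eq` with `a = 0`: only `c = L c'` contribute, `t^c = q^c'`; expand `Ek` and rearrange
the double series `∑_{c', n ≥ 1}` by `m = c' n` (`sigmaAntidiagonalEquivProd`, see Mathlib
`Mathlib/NumberTheory/TsumDivsorsAntidiagonal.lean`, `tsum_prod_pow_eq_tsum_sigma`). -/
theorem hasSum_G (L : ℕ) [NeZero L] {k : ℕ} (hk : 3 ≤ k) (b : ZMod L) (z : ℍ) :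
    HasSum (fun m : ℕ => coefG L k b m • Function.Periodic.qParam 1 z ^ m) (G L k ![0, b] z) := by
  rw [G_eq L hk 0 b z, if_pos rfl, neg_zero]
  have h1 := QExp_half L hk b z
  have h2 := QExp_half L hk (-b) z
  have h3 := (h1.add (h2.mul_left ((-1) ^ k))).mul_left (Ck L k)
  -- the part `m ≥ 1`
  set f : ℕ → ℂ := fun m => if m = 0 then 0 else
    coefG L k b m • Function.Periodic.qParam 1 z ^ m with hf
  have h4 : HasSum f (Ck L k *
      ((∑' c : ℕ+, if (((c : ℕ) : ℕ) : ZMod L) = 0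
          then Ek k (ZMod.stdAddChar b * tq L z ^ (c : ℕ)) else 0) +
        (-1) ^ k * ∑' c : ℕ+, if (((c : ℕ) : ℕ) : ZMod L) = 0
          then Ek k (ZMod.stdAddChar (-b) * tq L z ^ (c : ℕ)) else 0)) := by
    rw [← PNat.coe_injective.hasSum_iff]
    · refine h3.congr_fun fun e => ?_
      have he : (e : ℕ) ≠ 0 := e.pos.ne'
      simp only [Function.comp_apply, hf, if_neg he, coefG, sG, smul_eq_mul]
      rw [mul_assoc, ← mul_assoc ((-1 : ℂ) ^ k), ← add_mul, Finset.mul_sum, ← Finset.sum_add_distrib]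
      congr 2
      refine Finset.sum_congr rfl fun n _ => ?_
      rw [neg_mul]
      ring
    · intro m hm
      have : m = 0 := by
        by_contra h0
        exact hm ⟨⟨m, Nat.pos_of_ne_zero h0⟩, rfl⟩
      rw [hf]
      simp [this]
  have h5 : HasSum (fun m : ℕ => if m = 0 then Zc L k b else 0) (Zc L k b) := hasSum_ite_eq 0 _
  refine (h5.add h4).congr_fun fun m => ?_
  by_cases hm : m = 0
  · subst hm
    simp [hf, coefG]
  · simp [hf, hm]

/-- uniqueness of the `q`-expansion coefficients of a `Nice` function. -/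
theorem QExp_coeff_unique {f : ℍ → ℂ} (hf : Nice f) {c : ℕ → ℂ}
    (h : ∀ τ : ℍ, HasSum (fun m : ℕ => c m • Function.Periodic.qParam 1 τ ^ m) (f τ)) (m : ℕ) :
    ModularFormClass.qCoeff f m = c m := by
  have hfa : AnalyticAt ℂ (cuspFunction 1 f) 0 := hf.analyticAt
  have h1 := (hasFPowerSeriesOnBall_cuspFunction one_pos hfa h).hasFPowerSeriesAt
  have h2 := hfa.hasFPowerSeriesAt
  have h3 := congr_arg (FormalMultilinearSeries.coeff · m) (h1.eq_formalMultilinearSeries h2)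
  simp only [FormalMultilinearSeries.coeff_ofScalars] at h3
  rw [ModularFormClass.qCoeff, qExpansion_coeff, h3, div_eq_mul_inv, mul_comm]

/-- `qExpansion_coeff_unique` + `Nice.analyticAt`. -/
theorem qCoeff_G (L : ℕ) [NeZero L] {k : ℕ} (hk : 3 ≤ k) (b : ZMod L) (m : ℕ) :
    ModularFormClass.qCoeff (G L k ![0, b]) m = coefG L k b m :=
  QExp_coeff_unique (G_nice L (by exact_mod_cast hk) b) (fun τ => hasSum_G L hk b τ) m

end

end Fermat.Agent.S48.WT1
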