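import Fermat.Agent.S48.WT1.Quot
import Fermat.Agent.S48.WT1.QExp
import Fermat.Agent.S48.WT1.Red

set_option autoImplicit false

/-!
# S48 / WT1 : the normalised weight one forms `Ẽ_b ≡ 1 mod λ`, `⟨d⟩ Ẽ_b = κ(b,d) Ẽ_{bd}`,
`κ(b,d) ≡ d⁻¹ mod λ`
-/

namespace Fermat.Agent.S48.WT1

open UpperHalfPlane ModularForm Matrix Filter Topology Complex CongruenceSubgroup ModularFormClass
open Fermat.Agent.S48.HK Fermat.Agent.Lib.IS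
open scoped MatrixGroups Manifold ModularForm Real

noncomputable section

variable (ℓ : ℕ) [NeZero ℓ]

/-- the normalising constant `(C₃ E₃(ζ^b)) / (C₄ E₄(ζ^b))`. -/
def nrm (b : (ZMod ℓ)ˣ) : ℂ :=
  (Ck ℓ 3 * Ecl3 (ZMod.stdAddChar (b : ZMod ℓ))) / (Ck ℓ 4 * Ecl4 (ZMod.stdAddChar (b : ZMod ℓ)))

/-- the normalised weight one form. -/
def Et (hodd : Odd ℓ) (b : (ZMod ℓ)ˣ) : ModularForm (Gamma1 ℓ) 1 := nrm ℓ b • E1 ℓ hodd b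

/-- the multiplier of the diamond operators. -/
def kap (b d : (ZMod ℓ)ˣ) : ℂ := nrm ℓ b / nrm ℓ (b * d)

variable {ℓ} {κ : Type*} [Field κ] (D : RedDatum κ)

theorem Cong_pow_eq_one (x : ZMod ℓ) : (ZMod.stdAddChar x : ℂ) ^ ℓ = 1 := by
  rw [← AddChar.map_nsmul_eq_pow, nsmul_eq_mul, ZMod.natCast_self, zero_mul,
    AddChar.map_zero_eq_one]

theorem Cong_norm (x : ZMod ℓ) : ‖(ZMod.stdAddChar x : ℂ)‖ = 1 :=
  Complex.norm_eq_one_of_pow_eq_one (Cong_pow_eq_one x) (NeZero.ne ℓ)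

theorem Cong_ne_zero (x : ZMod ℓ) : (ZMod.stdAddChar x : ℂ) ≠ 0 := by
  intro h
  have := Cong_norm x
  rw [h, norm_zero] at this
  exact zero_ne_one this

theorem Cong_one_sub_ne_zero (hℓ : ℓ.Prime) (b : (ZMod ℓ)ˣ) :
    1 - (ZMod.stdAddChar (b : ZMod ℓ) : ℂ) ≠ 0 := by
  have : Fact ℓ.Prime := ⟨hℓ⟩
  intro h
  have h1 : (ZMod.stdAddChar (b : ZMod ℓ) : ℂ) = ZMod.stdAddChar (0 : ZMod ℓ) := by
    rw [AddChar.map_zero_eq_one]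
    exact (sub_eq_zero.mp h).symm
  exact b.ne_zero (ZMod.injective_stdAddChar h1)

theorem Cong_one_add_ne_zero (hℓ : ℓ.Prime) (h5 : 5 ≤ ℓ) (x : ZMod ℓ) :
    1 + (ZMod.stdAddChar x : ℂ) ≠ 0 := by
  intro h
  have hodd : Odd ℓ := hℓ.odd_of_ne_two (by omega)
  have h1 : (ZMod.stdAddChar x : ℂ) = -1 := by linear_combination h
  have h2 := Cong_pow_eq_one x
  rw [h1, hodd.neg_one_pow] at h2
  norm_num at h2

theorem Cong_quad_ne_zero (x : ZMod ℓ) :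
    1 + 4 * (ZMod.stdAddChar x : ℂ) + (ZMod.stdAddChar x : ℂ) ^ 2 ≠ 0 := by
  intro h
  have hn := Cong_norm x
  set w : ℂ := ZMod.stdAddChar x with hw
  have h1 : 4 * w = -(1 + w ^ 2) := by linear_combination h
  have h2 : ‖4 * w‖ = 4 := by rw [norm_mul, hn, mul_one]; norm_num
  have h3 : ‖-(1 + w ^ 2)‖ ≤ 2 := by
    rw [norm_neg]
    calc ‖1 + w ^ 2‖ ≤ ‖(1 : ℂ)‖ + ‖w ^ 2‖ := norm_add_le _ _
      _ = 2 := by rw [norm_one, norm_pow, hn]; norm_num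
  rw [← h1, h2] at h3
  norm_num at h3

omit [NeZero ℓ] in
theorem Cong_natCast_ne_zero (hℓ : ℓ.Prime) (hchar : (ℓ : κ) = 0) {n : ℕ} (h0 : 0 < n)
    (hn : n < ℓ) : (n : κ) ≠ 0 := by
  have : CharP κ ℓ := (CharP.charP_iff_prime_eq_zero hℓ).2 hchar
  intro h
  rw [CharP.cast_eq_zero_iff κ ℓ] at h
  exact absurd (Nat.le_of_dvd h0 h) (not_le.mpr hn)

theorem Cong_red_w (hℓ : ℓ.Prime) (hchar : (ℓ : κ) = 0)
    (hζ : ∀ x : ℂ, x ^ ℓ = 1 → x ∈ D.R) (x : ZMod ℓ) : D.Red (ZMod.stdAddChar x : ℂ) 1 :=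
  RedDatum.red_one_of_pow_eq_one hℓ hchar (hζ _ (Cong_pow_eq_one x)) (Cong_pow_eq_one x)

theorem Cong_red_one_add (hℓ : ℓ.Prime) (hchar : (ℓ : κ) = 0)
    (hζ : ∀ x : ℂ, x ^ ℓ = 1 → x ∈ D.R) (x : ZMod ℓ) :
    D.Red (1 + (ZMod.stdAddChar x : ℂ)) ((2 : ℕ) : κ) :=
  (RedDatum.Red.one.add (Cong_red_w D hℓ hchar hζ x)).congr rfl (by norm_num)

theorem Cong_red_quad (hℓ : ℓ.Prime) (hchar : (ℓ : κ) = 0)
    (hζ : ∀ x : ℂ, x ^ ℓ = 1 → x ∈ D.R) (x : ZMod ℓ) :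
    D.Red (1 + 4 * (ZMod.stdAddChar x : ℂ) + (ZMod.stdAddChar x : ℂ) ^ 2) ((6 : ℕ) : κ) := by
  have hw := Cong_red_w D hℓ hchar hζ x
  have h4 : D.Red (4 : ℂ) (4 : κ) := (RedDatum.Red.natCast 4).congr (by norm_num) (by norm_num)
  exact ((RedDatum.Red.one.add (h4.mul hw)).add (hw.pow 2)).congr rfl (by norm_num)

theorem Cong_red_one_sub (hℓ : ℓ.Prime) (hchar : (ℓ : κ) = 0)
    (hζ : ∀ x : ℂ, x ^ ℓ = 1 → x ∈ D.R) (x : ZMod ℓ) :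
    D.Red (1 - (ZMod.stdAddChar x : ℂ)) 0 :=
  (RedDatum.Red.one.sub (Cong_red_w D hℓ hchar hζ x)).congr rfl (sub_self 1)

/-- `E₃(w) / E₄(w)`. -/
theorem Cong_ratio {w : ℂ} (h0 : w ≠ 0) (h1 : 1 - w ≠ 0) (_h2 : 1 + 4 * w + w ^ 2 ≠ 0) :
    Ecl3 w / Ecl4 w = (1 + w) * (1 - w) / (1 + 4 * w + w ^ 2) := by
  unfold Ecl3 Ecl4
  field_simp

theorem Cong_stdAddChar_mul (b d : ZMod ℓ) :
    (ZMod.stdAddChar (b * d) : ℂ) = (ZMod.stdAddChar b : ℂ) ^ d.val := by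
  rw [← AddChar.map_nsmul_eq_pow, nsmul_eq_mul, ZMod.natCast_zmod_val, mul_comm]

theorem Cong_kap_aux {c3 c4 w w' S : ℂ} (hc3 : c3 ≠ 0) (hc4 : c4 ≠ 0) (h0 : w ≠ 0) (h0' : w' ≠ 0)
    (n1 : 1 - w ≠ 0) (nS : S ≠ 0) (hgeom : 1 - w' = (1 - w) * S) (q : 1 + 4 * w + w ^ 2 ≠ 0)
    (q' : 1 + 4 * w' + w' ^ 2 ≠ 0) (p' : 1 + w' ≠ 0) :
    (c3 * Ecl3 w / (c4 * Ecl4 w)) / (c3 * Ecl3 w' / (c4 * Ecl4 w')) =
      ((1 + w) * (1 + 4 * w' + w' ^ 2)) / ((1 + 4 * w + w ^ 2) * ((1 + w') * S)) := by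
  have n1' : 1 - w' ≠ 0 := by rw [hgeom]; exact mul_ne_zero n1 nS
  rw [mul_div_mul_comm, mul_div_mul_comm, Cong_ratio h0 n1 q, Cong_ratio h0' n1' q', hgeom]
  field_simp

/-- algebra: with `w = ζ^b`: `Red w 1` (`red_one_of_pow_eq_one`), so `1/E₃(w) = (1-w)³/(w(1+w))`
reduces to `0` (`2 ≠ 0` in `κ`). -/
theorem red_inv_Ecl3 (hℓ : ℓ.Prime) (h5 : 5 ≤ ℓ) (hchar : (ℓ : κ) = 0)
    (hζ : ∀ x : ℂ, x ^ ℓ = 1 → x ∈ D.R) (b : (ZMod ℓ)ˣ) :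
    D.Red (Ecl3 (ZMod.stdAddChar (b : ZMod ℓ)))⁻¹ 0 := by
  unfold Ecl3
  rw [inv_div]
  have h2 : ((2 : ℕ) : κ) ≠ 0 := Cong_natCast_ne_zero hℓ hchar (by norm_num) (by omega)
  have hden := (Cong_red_w D hℓ hchar hζ (b : ZMod ℓ)).mul
    (Cong_red_one_add D hℓ hchar hζ (b : ZMod ℓ))
  refine (((Cong_red_one_sub D hℓ hchar hζ (b : ZMod ℓ)).pow 3).div hden
    (mul_ne_zero one_ne_zero h2)).congr rfl ?_
  rw [zero_pow (by norm_num), zero_div]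

/-- `1/E₄(w) = (1-w)⁴/(w(1+4w+w²))` reduces to `0` (`6 ≠ 0` in `κ`). -/
theorem red_inv_Ecl4 (hℓ : ℓ.Prime) (h5 : 5 ≤ ℓ) (hchar : (ℓ : κ) = 0)
    (hζ : ∀ x : ℂ, x ^ ℓ = 1 → x ∈ D.R) (b : (ZMod ℓ)ˣ) :
    D.Red (Ecl4 (ZMod.stdAddChar (b : ZMod ℓ)))⁻¹ 0 := by
  unfold Ecl4
  rw [inv_div]
  have h6 : ((6 : ℕ) : κ) ≠ 0 := by
    have h2 : ((2 : ℕ) : κ) ≠ 0 := Cong_natCast_ne_zero hℓ hchar (by norm_num) (by omega)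
    have h3 : ((3 : ℕ) : κ) ≠ 0 := Cong_natCast_ne_zero hℓ hchar (by norm_num) (by omega)
    have : ((6 : ℕ) : κ) = ((2 : ℕ) : κ) * ((3 : ℕ) : κ) := by norm_num
    rw [this]
    exact mul_ne_zero h2 h3
  have hden := (Cong_red_w D hℓ hchar hζ (b : ZMod ℓ)).mul
    (Cong_red_quad D hℓ hchar hζ (b : ZMod ℓ))
  refine (((Cong_red_one_sub D hℓ hchar hζ (b : ZMod ℓ)).pow 4).div hden
    (mul_ne_zero one_ne_zero h6)).congr rfl ?_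
  rw [zero_pow (by norm_num), zero_div]

theorem Ecl3_ne_zero (hℓ : ℓ.Prime) (h5 : 5 ≤ ℓ) (b : (ZMod ℓ)ˣ) :
    Ecl3 (ZMod.stdAddChar (b : ZMod ℓ)) ≠ 0 := by
  unfold Ecl3
  exact div_ne_zero (mul_ne_zero (Cong_ne_zero _) (Cong_one_add_ne_zero hℓ h5 _))
    (pow_ne_zero 3 (Cong_one_sub_ne_zero hℓ b))

/-- `1 + 4w + w² = w (4 + w + w⁻¹) ≠ 0` since `|w + w⁻¹| ≤ 2`. -/
theorem Ecl4_ne_zero (hℓ : ℓ.Prime) (h5 : 5 ≤ ℓ) (b : (ZMod ℓ)ˣ) :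
    Ecl4 (ZMod.stdAddChar (b : ZMod ℓ)) ≠ 0 := by
  unfold Ecl4
  exact div_ne_zero (mul_ne_zero (Cong_ne_zero _) (Cong_quad_ne_zero _))
    (pow_ne_zero 4 (Cong_one_sub_ne_zero hℓ b))

theorem nrm_ne_zero (hℓ : ℓ.Prime) (h5 : 5 ≤ ℓ) (b : (ZMod ℓ)ˣ) : nrm ℓ b ≠ 0 := by
  unfold nrm
  exact div_ne_zero (mul_ne_zero (Ck_ne_zero ℓ 3) (Ecl3_ne_zero hℓ h5 b))
    (mul_ne_zero (Ck_ne_zero ℓ 4) (Ecl4_ne_zero hℓ h5 b))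

theorem sG_mem (hζ : ∀ x : ℂ, x ^ ℓ = 1 → x ∈ D.R) (k : ℕ) (b : ZMod ℓ) (m : ℕ) :
    sG ℓ k b m ∈ D.R := by
  unfold sG
  refine Subring.sum_mem _ fun n _ => ?_
  refine D.R.mul_mem (D.R.pow_mem (natCast_mem D.R n) _) (D.R.add_mem (hζ _ (Cong_pow_eq_one _)) ?_)
  exact D.R.mul_mem (D.R.pow_mem (D.R.neg_mem D.R.one_mem) _) (hζ _ (Cong_pow_eq_one _))

/-- `κ(b,d) = [(1+w)(1-w)(1+4w'+w'²)] / [(1+4w+w²)(1+w')(1-w')]`, `w = ζ^b`, `w' = w^d`,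
`(1-w')/(1-w) = ∑_{i<d} w^i ≡ d`. -/
theorem red_kap (hℓ : ℓ.Prime) (h5 : 5 ≤ ℓ) (hchar : (ℓ : κ) = 0)
    (hζ : ∀ x : ℂ, x ^ ℓ = 1 → x ∈ D.R) (b d : (ZMod ℓ)ˣ) :
    D.Red (kap ℓ b d) (((d : ZMod ℓ).val : κ)⁻¹) := by
  have : Fact ℓ.Prime := ⟨hℓ⟩
  have h2 : ((2 : ℕ) : κ) ≠ 0 := Cong_natCast_ne_zero hℓ hchar (by norm_num) (by omega)
  have h6 : ((6 : ℕ) : κ) ≠ 0 := by
    have h3 : ((3 : ℕ) : κ) ≠ 0 := Cong_natCast_ne_zero hℓ hchar (by norm_num) (by omega)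
    have : ((6 : ℕ) : κ) = ((2 : ℕ) : κ) * ((3 : ℕ) : κ) := by norm_num
    rw [this]
    exact mul_ne_zero h2 h3
  have hd : (((d : ZMod ℓ).val : ℕ) : κ) ≠ 0 :=
    Cong_natCast_ne_zero hℓ hchar (Nat.pos_of_ne_zero ((ZMod.val_ne_zero _).mpr d.ne_zero))
      (ZMod.val_lt _)
  set w : ℂ := ZMod.stdAddChar (b : ZMod ℓ) with hw
  set w' : ℂ := ZMod.stdAddChar ((b * d : (ZMod ℓ)ˣ) : ZMod ℓ) with hw'
  set S : ℂ := ∑ i ∈ Finset.range (d : ZMod ℓ).val, w ^ i with hS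
  have hww' : w' = w ^ (d : ZMod ℓ).val := by
    rw [hw', hw, Units.val_mul, Cong_stdAddChar_mul]
  have hgeom : 1 - w' = (1 - w) * S := by
    rw [hww', hS, mul_neg_geom_sum]
  have n1 : 1 - w ≠ 0 := Cong_one_sub_ne_zero hℓ b
  have n1' : 1 - w' ≠ 0 := Cong_one_sub_ne_zero hℓ (b * d)
  have nS : S ≠ 0 := by
    intro h
    rw [h, mul_zero] at hgeom
    exact n1' hgeom
  have key : kap ℓ b d = ((1 + w) * (1 + 4 * w' + w' ^ 2)) /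
      ((1 + 4 * w + w ^ 2) * ((1 + w') * S)) := by
    exact Cong_kap_aux (Ck_ne_zero ℓ 3) (Ck_ne_zero ℓ 4) (Cong_ne_zero _) (Cong_ne_zero _) n1 nS
      hgeom (Cong_quad_ne_zero _) (Cong_quad_ne_zero _) (Cong_one_add_ne_zero hℓ h5 _)
  rw [key]
  have rS : D.Red S (((d : ZMod ℓ).val : ℕ) : κ) := by
    have := RedDatum.Red.sum (D := D) (Finset.range (d : ZMod ℓ).val) (f := fun i => w ^ i)
      (g := fun i => (1 : κ) ^ i) fun i _ => (Cong_red_w D hℓ hchar hζ (b : ZMod ℓ)).pow i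
    refine this.congr rfl ?_
    simp
  have num := (Cong_red_one_add D hℓ hchar hζ (b : ZMod ℓ)).mul
    (Cong_red_quad D hℓ hchar hζ ((b * d : (ZMod ℓ)ˣ) : ZMod ℓ))
  have den := (Cong_red_quad D hℓ hchar hζ (b : ZMod ℓ)).mul
    ((Cong_red_one_add D hℓ hchar hζ ((b * d : (ZMod ℓ)ˣ) : ZMod ℓ)).mul rS)
  refine (num.div den (mul_ne_zero h6 (mul_ne_zero h2 hd))).congr rfl ?_
  field_simp

/-- from `diamondMF_E1`. -/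
theorem diamondMF_Et (hℓ : ℓ.Prime) (h5 : 5 ≤ ℓ) (hodd : Odd ℓ) (b d : (ZMod ℓ)ˣ) :
    diamondMF 1 d (Et ℓ hodd b) = kap ℓ b d • Et ℓ hodd (b * d) := by
  unfold Et kap
  rw [map_smul, diamondMF_E1, smul_smul, div_mul_cancel₀ _ (nrm_ne_zero hℓ h5 (b * d))]

/-- **`Ẽ_b ≡ 1`.**  `E₁ · G₃ = G₄` as `Nice` functions, so (`qExpansion_mul`)
`qExp(Ẽ_b) * A₃ = A₄` with `A_k = qExp(G_k)/(C_k E_k(w)) = 1 + E_k(w)⁻¹ ∑_{m ≥ 1} s_k(m) q^m`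
(`qCoeff_G`, `Zc_three`, `Zc_four`); conclude with `RedDatum.red_coeff_of_mul_eq`. -/
theorem red_qCoeff_Et (hℓ : ℓ.Prime) (h5 : 5 ≤ ℓ) (hodd : Odd ℓ) (hchar : (ℓ : κ) = 0)
    (hζ : ∀ x : ℂ, x ^ ℓ = 1 → x ∈ D.R) (b : (ZMod ℓ)ˣ) (n : ℕ) :
    D.Red (qCoeff (Et ℓ hodd b) n) (if n = 0 then 1 else 0) := by
  have hb0 : (b : ZMod ℓ) ≠ 0 := by
    haveI : Fact ℓ.Prime := ⟨hℓ⟩
    exact b.ne_zero
  have hw : (![0, (b : ZMod ℓ)] : Fin 2 → ZMod ℓ) ≠ 0 := by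
    intro h
    exact hb0 (by simpa using congrFun h 1)
  have he3 := Ecl3_ne_zero hℓ h5 b
  have he4 := Ecl4_ne_zero hℓ h5 b
  have hC3 := Ck_ne_zero ℓ 3
  have hC4 := Ck_ne_zero ℓ 4
  have hniceE := nice_of_modularForm (one_mem_strictPeriods_Gamma1 ℓ) (E1 ℓ hodd b)
  have hnice3 : Nice (G ℓ 3 ![0, (b : ZMod ℓ)]) := G_nice ℓ (by norm_num) _
  -- the relation between the `q`-expansions
  have hmul : qExpansion 1 (E1 ℓ hodd b) * qExpansion 1 (G ℓ 3 ![0, (b : ZMod ℓ)]) =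
      qExpansion 1 (G ℓ 4 ![0, (b : ZMod ℓ)]) := by
    have h1 : (⇑(E1 ℓ hodd b) * G ℓ 3 ![0, (b : ZMod ℓ)]) = G ℓ 4 ![0, (b : ZMod ℓ)] := by
      funext z
      rw [Pi.mul_apply, coe_E1]
      exact div_mul_cancel₀ _ (G3_ne_zero ℓ hodd hw z)
    rw [← h1]
    exact (qExpansion_mul hniceE.analyticAt hnice3.analyticAt).symm
  have hX : qExpansion 1 (Et ℓ hodd b) = nrm ℓ b • qExpansion 1 (E1 ℓ hodd b) :=
    qExpansion_smul hniceE.analyticAt (nrm ℓ b)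
  -- coefficients of the normalised series
  have hco3 : ∀ m, PowerSeries.coeff m ((Ck ℓ 3 * Ecl3 (ZMod.stdAddChar (b : ZMod ℓ)))⁻¹ •
      qExpansion 1 (G ℓ 3 ![0, (b : ZMod ℓ)])) =
      if m = 0 then 1 else (Ecl3 (ZMod.stdAddChar (b : ZMod ℓ)))⁻¹ * sG ℓ 3 b m := by
    intro m
    have h1 : PowerSeries.coeff m (qExpansion 1 (G ℓ 3 ![0, (b : ZMod ℓ)])) = coefG ℓ 3 b m :=
      qCoeff_G ℓ (k := 3) (by norm_num) (b : ZMod ℓ) m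
    rw [PowerSeries.coeff_smul, h1, coefG, smul_eq_mul]
    split_ifs with hm
    · rw [Zc_three ℓ hb0]
      exact inv_mul_cancel₀ (mul_ne_zero hC3 he3)
    · field_simp
  have hco4 : ∀ m, PowerSeries.coeff m ((Ck ℓ 4 * Ecl4 (ZMod.stdAddChar (b : ZMod ℓ)))⁻¹ •
      qExpansion 1 (G ℓ 4 ![0, (b : ZMod ℓ)])) =
      if m = 0 then 1 else (Ecl4 (ZMod.stdAddChar (b : ZMod ℓ)))⁻¹ * sG ℓ 4 b m := by
    intro m
    have h1 : PowerSeries.coeff m (qExpansion 1 (G ℓ 4 ![0, (b : ZMod ℓ)])) = coefG ℓ 4 b m :=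
      qCoeff_G ℓ (k := 4) (by norm_num) (b : ZMod ℓ) m
    rw [PowerSeries.coeff_smul, h1, coefG, smul_eq_mul]
    split_ifs with hm
    · rw [Zc_four ℓ hb0]
      exact inv_mul_cancel₀ (mul_ne_zero hC4 he4)
    · field_simp
  have hred3 : ∀ m, D.Red (PowerSeries.coeff m ((Ck ℓ 3 * Ecl3 (ZMod.stdAddChar (b : ZMod ℓ)))⁻¹ •
      qExpansion 1 (G ℓ 3 ![0, (b : ZMod ℓ)]))) (if m = 0 then 1 else 0) := by
    intro m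
    rw [hco3]
    split_ifs with hm
    · exact RedDatum.Red.one
    · exact ((red_inv_Ecl3 D hℓ h5 hchar hζ b).mul
        (RedDatum.red_of_mem (sG_mem D hζ 3 (b : ZMod ℓ) m))).congr rfl (zero_mul _)
  have hred4 : ∀ m, D.Red (PowerSeries.coeff m ((Ck ℓ 4 * Ecl4 (ZMod.stdAddChar (b : ZMod ℓ)))⁻¹ •
      qExpansion 1 (G ℓ 4 ![0, (b : ZMod ℓ)]))) (if m = 0 then 1 else 0) := by
    intro m
    rw [hco4]
    split_ifs with hm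
    · exact RedDatum.Red.one
    · exact ((red_inv_Ecl4 D hℓ h5 hchar hζ b).mul
        (RedDatum.red_of_mem (sG_mem D hζ 4 (b : ZMod ℓ) m))).congr rfl (zero_mul _)
  have hrel : qExpansion 1 (Et ℓ hodd b) *
      ((Ck ℓ 3 * Ecl3 (ZMod.stdAddChar (b : ZMod ℓ)))⁻¹ • qExpansion 1 (G ℓ 3 ![0, (b : ZMod ℓ)])) =
      (Ck ℓ 4 * Ecl4 (ZMod.stdAddChar (b : ZMod ℓ)))⁻¹ •
        qExpansion 1 (G ℓ 4 ![0, (b : ZMod ℓ)]) := by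
    rw [hX, ← hmul, smul_mul_smul_comm]
    congr 1
    unfold nrm
    have h34 := mul_ne_zero hC3 he3
    have h44 := mul_ne_zero hC4 he4
    field_simp
  exact RedDatum.red_coeff_of_mul_eq (by rw [hco3]; rfl) hred3 hred4 hrel n

end

end Fermat.Agent.S48.WT1
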