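import Mathlib
import Fermat.Agent.GAL.Tors.TwistedEis

set_option autoImplicit false

/-!
# S48 / WT1 : the level `L` Eisenstein series `G_{k,w}(z) = ∑_{(c,d) ≡ w mod L} (c z + d)^(-k)`

Soft properties (slash action, holomorphy, boundedness) from `GAL/Tors/TwistedEis.gEis`.
-/

namespace Fermat.Agent.S48.WT1

open UpperHalfPlane ModularForm EisensteinSeries Matrix Filter Topology Complex
open Fermat.Agent.GAL.Tors.TwistedEis
open scoped MatrixGroups Manifold ModularForm Real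

noncomputable section

/-- reduction of an integer vector mod `L`. -/
def redVec (L : ℕ) (v : Fin 2 → ℤ) : Fin 2 → ZMod L := fun i => ((v i : ℤ) : ZMod L)

/-- indicator function of a class mod `L`. -/
def ind (L : ℕ) (w : Fin 2 → ZMod L) (v : Fin 2 → ℤ) : ℂ := if redVec L v = w then 1 else 0

theorem norm_ind_le (L : ℕ) (w : Fin 2 → ZMod L) (v : Fin 2 → ℤ) : ‖ind L w v‖ ≤ 1 := by
  unfold ind
  split_ifs <;> simp

/-- `G_{k,w}(z) = ∑_{(c,d) ≡ w mod L} (c z + d)^(-k)`. -/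
def G (L : ℕ) (k : ℤ) (w : Fin 2 → ZMod L) : ℍ → ℂ := gEis (ind L w) k

/-- reduction of a matrix mod `L`. -/
def redSL (L : ℕ) (A : SL(2, ℤ)) : Matrix (Fin 2) (Fin 2) (ZMod L) :=
  (A : Matrix (Fin 2) (Fin 2) ℤ).map (fun x : ℤ => (x : ZMod L))

theorem redVec_vecMul (L : ℕ) (v : Fin 2 → ℤ) (A : SL(2, ℤ)) :
    redVec L (v ᵥ* (A : Matrix (Fin 2) (Fin 2) ℤ)) = redVec L v ᵥ* redSL L A := by
  ext i
  simp [redVec, redSL, vecMul, dotProduct, Fin.sum_univ_two]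

theorem redSL_mul (L : ℕ) (A B : SL(2, ℤ)) : redSL L (A * B) = redSL L A * redSL L B := by
  show ((A * B : SL(2, ℤ)) : Matrix (Fin 2) (Fin 2) ℤ).map (Int.castRingHom (ZMod L)) = _
  rw [Matrix.SpecialLinearGroup.coe_mul, Matrix.map_mul]
  rfl

theorem redSL_one (L : ℕ) : redSL L 1 = 1 := by
  unfold redSL
  rw [Matrix.SpecialLinearGroup.coe_one]
  exact Matrix.map_one _ Int.cast_zero Int.cast_one

/-- `w ↦ w * A` as a permutation of `(ℤ/L)²`. -/
def vecPerm (L : ℕ) (A : SL(2, ℤ)) : Equiv.Perm (Fin 2 → ZMod L) where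
  toFun w := w ᵥ* redSL L A
  invFun w := w ᵥ* redSL L A⁻¹
  left_inv w := by
    show (w ᵥ* redSL L A) ᵥ* redSL L A⁻¹ = w
    rw [vecMul_vecMul, ← redSL_mul, mul_inv_cancel, redSL_one, vecMul_one]
  right_inv w := by
    show (w ᵥ* redSL L A⁻¹) ᵥ* redSL L A = w
    rw [vecMul_vecMul, ← redSL_mul, inv_mul_cancel, redSL_one, vecMul_one]

theorem vecPerm_apply (L : ℕ) (A : SL(2, ℤ)) (w : Fin 2 → ZMod L) :
    vecPerm L A w = w ᵥ* redSL L A := rfl

theorem vecPerm_ne_zero (L : ℕ) (A : SL(2, ℤ)) {w : Fin 2 → ZMod L} (hw : w ≠ 0) :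
    vecPerm L A w ≠ 0 := by
  intro h
  apply hw
  have : vecPerm L A w = vecPerm L A 0 := by rw [h, vecPerm_apply, zero_vecMul]
  exact (vecPerm L A).injective this

/-- `G_{k,w} ∣ A = G_{k, w A}` (from `gEis_slash`). -/
theorem G_slash (L : ℕ) (k : ℤ) (w : Fin 2 → ZMod L) (A : SL(2, ℤ)) :
    G L k w ∣[k] A = G L k (w ᵥ* redSL L A) := by
  unfold G
  rw [gEis_slash]
  congr 1
  funext v
  unfold ind
  have h : redVec L (v ᵥ* ((A⁻¹ : SL(2, ℤ)) : Matrix (Fin 2) (Fin 2) ℤ)) = w ↔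
      redVec L v = w ᵥ* redSL L A := by
    rw [redVec_vecMul]
    exact (vecPerm L A).symm_apply_eq
  simp only [h]

theorem G_mdiff (L : ℕ) {k : ℤ} (hk : 3 ≤ k) (w : Fin 2 → ZMod L) : MDiff (G L k w) :=
  mdifferentiable_gEis (norm_ind_le L w) hk

theorem G_bdd (L : ℕ) {k : ℤ} (hk : 3 ≤ k) (w : Fin 2 → ZMod L) :
    IsBoundedAtImInfty (G L k w) :=
  isBoundedAtImInfty_gEis (norm_ind_le L w) hk

/-- `G_{k,(0,b)}` is invariant under `Γ₁(L)`. -/
theorem G_slash_Gamma1 (L : ℕ) (k : ℤ) (b : ZMod L) {A : SL(2, ℤ)}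
    (hA : A ∈ CongruenceSubgroup.Gamma1 L) : G L k ![0, b] ∣[k] A = G L k ![0, b] := by
  rw [CongruenceSubgroup.Gamma1_mem] at hA
  rw [G_slash]
  congr 1
  ext i
  fin_cases i
  · simp [redSL, vecMul, dotProduct, Fin.sum_univ_two, hA.2.2]
  · simp [redSL, vecMul, dotProduct, Fin.sum_univ_two, hA.2.1]

/-- `G_{k,(0,b)} ∣ A = G_{k,(0, b d)}` for `A ∈ Γ₀(L)` with lower right entry `d`. -/
theorem G_slash_Gamma0 (L : ℕ) (k : ℤ) (b : ZMod L) {A : SL(2, ℤ)}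
    (hA : A ∈ CongruenceSubgroup.Gamma0 L) :
    G L k ![0, b] ∣[k] A = G L k ![0, b * ((A 1 1 : ℤ) : ZMod L)] := by
  rw [CongruenceSubgroup.Gamma0_mem] at hA
  rw [G_slash]
  congr 1
  ext i
  fin_cases i
  · simp [redSL, vecMul, dotProduct, Fin.sum_univ_two, hA]
  · simp [redSL, vecMul, dotProduct, Fin.sum_univ_two]

/-- `G_{k,(0,b)}` has period `1`. -/
theorem G_periodic (L : ℕ) (k : ℤ) (b : ZMod L) :
    Function.Periodic (G L k ![0, b] ∘ ofComplex) 1 := by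
  let F : SlashInvariantForm (CongruenceSubgroup.Gamma1 L : Subgroup (GL (Fin 2) ℝ)) k :=
    { toFun := G L k ![0, b]
      slash_action_eq' := by
        rintro _ ⟨γ, hγ, rfl⟩
        exact (SL_slash _ γ).symm.trans (G_slash_Gamma1 L k b hγ) }
  have h := SlashInvariantFormClass.periodic_comp_ofComplex F (h := 1) (by simp)
  intro x
  have h1 := h x
  rw [Complex.ofReal_one] at h1
  exact h1

/-! ### notation for the expansions -/

/-- `∑_{n ≥ 0} n^(k-1) x^n`. -/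
def Ek (k : ℕ) (x : ℂ) : ℂ := ∑' n : ℕ, (n : ℂ) ^ (k - 1) * x ^ n

/-- the constant `(-2πi)^k / ((k-1)! L^k)`. -/
def Ck (L k : ℕ) : ℂ := (-2 * π * Complex.I) ^ k / ((k - 1).factorial * (L : ℂ) ^ k)

theorem Ck_ne_zero (L : ℕ) [NeZero L] (k : ℕ) : Ck L k ≠ 0 := by
  unfold Ck
  refine div_ne_zero (pow_ne_zero _ ?_) (mul_ne_zero (Nat.cast_ne_zero.2 (Nat.factorial_ne_zero _))
    (pow_ne_zero _ (Nat.cast_ne_zero.2 (NeZero.ne L))))
  simp [Real.pi_ne_zero]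

/-- the local parameter `t = q^(1/L) = exp(2πi z / L)`. -/
def tq (L : ℕ) (z : ℍ) : ℂ := cexp (2 * π * Complex.I * z / L)

theorem tq_ne_zero (L : ℕ) (z : ℍ) : tq L z ≠ 0 := Complex.exp_ne_zero _

theorem tq_pow (L : ℕ) [NeZero L] (z : ℍ) : tq L z ^ L = cexp (2 * π * Complex.I * z) := by
  unfold tq
  rw [← Complex.exp_nat_mul]
  congr 1
  have hL : (L : ℂ) ≠ 0 := Nat.cast_ne_zero.2 (NeZero.ne L)
  field_simp

theorem tendsto_tq (L : ℕ) [NeZero L] : Tendsto (tq L) atImInfty (𝓝 0) := by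
  have hL : (0 : ℝ) < (L : ℝ) := Nat.cast_pos.2 (NeZero.pos L)
  have h := UpperHalfPlane.qParam_tendsto_atImInfty hL
  refine h.congr fun z => ?_
  unfold tq Function.Periodic.qParam
  rw [Complex.ofReal_natCast]

/-- the constant term `∑_{d ≡ b mod L} d^(-k)`. -/
def Zc (L k : ℕ) (b : ZMod L) : ℂ :=
  ∑' d : ℤ, if ((d : ℤ) : ZMod L) = b then (d : ℂ) ^ (-(k : ℤ)) else 0

end

end Fermat.Agent.S48.WT1
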