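import Mathlib

set_option autoImplicit false

/-!
# S48 / WT1 : a level one form of weight `12 m` with a zero of order exactly `m` at `i∞`
has no zero on `ℍ`
-/

namespace Fermat.Agent.S48.WT1

open UpperHalfPlane ModularForm Filter Topology Complex
open scoped MatrixGroups Manifold ModularForm Real

/-- `Δ` is invariant of weight `12`. -/
theorem levelOne_disc_slash (A : SL(2, ℤ)) :
    ModularForm.discriminant ∣[(12 : ℤ)] A = ModularForm.discriminant := by
  have h := SlashInvariantFormClass.slash_action_eq CuspForm.discriminant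
    (A : GL (Fin 2) ℝ) ⟨A, rfl⟩
  rw [ModularForm.SL_slash]
  exact h

/-- transformation formula from slash invariance. -/
theorem levelOne_apply_smul {k : ℤ} {P : ℍ → ℂ} (A : SL(2, ℤ)) (h : P ∣[k] A = P) (z : ℍ) :
    P (A • z) = P z * denom A z ^ k := by
  have h1 := congrFun h z
  rw [ModularForm.SL_slash_apply] at h1
  rw [← h1, mul_assoc, ← zpow_add₀ (denom_ne_zero A z), neg_add_cancel, zpow_zero, mul_one]

/-- `P / Δ^m` is invariant of weight `0`. -/
theorem levelOne_quot_slash (m : ℕ) (P : ℍ → ℂ)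
    (inv : ∀ A : SL(2, ℤ), P ∣[(12 * m : ℤ)] A = P) (A : SL(2, ℤ)) :
    (fun z : ℍ => P z / ModularForm.discriminant z ^ m) ∣[(0 : ℤ)] A
      = fun z : ℍ => P z / ModularForm.discriminant z ^ m := by
  ext z
  rw [ModularForm.SL_slash_apply, neg_zero, zpow_zero, mul_one,
    levelOne_apply_smul A (inv A) z, levelOne_apply_smul A (levelOne_disc_slash A) z, mul_pow,
    ← zpow_natCast (denom A z ^ (12 : ℤ)) m, ← zpow_mul]
  have hd : denom A z ^ ((12 : ℤ) * m) ≠ 0 := zpow_ne_zero _ (denom_ne_zero A z)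
  rw [mul_div_mul_right _ _ hd]

/-- the limit of `P / Δ^m`. -/
theorem levelOne_quot_tendsto (m : ℕ) (P : ℍ → ℂ) {c : ℂ}
    (lim : Tendsto (fun z : ℍ => P z / cexp (2 * π * Complex.I * z) ^ m) atImInfty (𝓝 c)) :
    Tendsto (fun z : ℍ => P z / ModularForm.discriminant z ^ m) atImInfty (𝓝 c) := by
  have h1 := (ModularForm.tendsto_atImInfty_tprod_one_sub_eta_q_pow).pow m
  rw [one_pow] at h1
  have h2 := lim.div h1 one_ne_zero
  rw [div_one] at h2
  refine h2.congr fun z => ?_
  rw [ModularForm.discriminant_eq_q_prod, mul_pow, Pi.div_apply, div_div]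
  congr 3
  simp [Function.Periodic.qParam]

/-- `h = P / Δ^m` is holomorphic (`discriminant_ne_zero`), invariant of weight `0`, and tends to `c`
at `i∞` (`discriminant_eq_q_prod`, `tendsto_atImInfty_tprod_one_sub_eta_q_pow`), hence bounded at
`i∞`; so it is a `ModularForm 𝒮ℒ 0`, constant by `ModularFormClass.levelOne_weight_zero_const`,
and the constant is `c ≠ 0`. -/
theorem ne_zero_of_levelOne (m : ℕ) (P : ℍ → ℂ) (hol : MDiff P)
    (inv : ∀ A : SL(2, ℤ), P ∣[(12 * m : ℤ)] A = P) {c : ℂ} (hc : c ≠ 0)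
    (lim : Tendsto (fun z : ℍ => P z / cexp (2 * π * Complex.I * z) ^ m) atImInfty (𝓝 c))
    (z : ℍ) : P z ≠ 0 := by
  have hlim := levelOne_quot_tendsto m P lim
  let h : ModularForm 𝒮ℒ 0 :=
    { toFun := fun z => P z / ModularForm.discriminant z ^ m
      slash_action_eq' := fun _ ⟨γ, hγ⟩ ↦ hγ ▸ levelOne_quot_slash m P inv γ
      holo' := hol.div (CuspForm.discriminant.holo'.pow m)
        (fun z => pow_ne_zero m (ModularForm.discriminant_ne_zero z))
      bdd_at_cusps' := by
        intro c' hc'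
        rw [Subgroup.IsArithmetic.isCusp_iff_isCusp_SL2Z] at hc'
        rw [OnePoint.isBoundedAt_iff_forall_SL2Z hc']
        intro γ _
        rw [levelOne_quot_slash m P inv γ, IsBoundedAtImInfty, BoundedAtFilter]
        exact hlim.isBigO_one ℝ }
  obtain ⟨c', hc'⟩ := ModularFormClass.levelOne_weight_zero_const h
  have hval : ∀ w : ℍ, P w / ModularForm.discriminant w ^ m = c' := fun w => congrFun hc' w
  have hcc : c' = c := by
    have h1 : Tendsto (fun w : ℍ => P w / ModularForm.discriminant w ^ m) atImInfty (𝓝 c') := by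
      simp only [hval]
      exact tendsto_const_nhds
    exact tendsto_nhds_unique h1 hlim
  intro hz
  have := hval z
  rw [hz, zero_div, hcc] at this
  exact hc this.symm

end Fermat.Agent.S48.WT1
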