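import Fermat.Agent.S48.HK.Hecke

set_option autoImplicit false

/-!
# S48 / WT1 : the product `S₁(Γ₁(N)) × M₁(Γ₁(ℓ)) → S₂(Γ₁(Nℓ))`
-/

namespace Fermat.Agent.S48.WT1

open UpperHalfPlane ModularForm CongruenceSubgroup ModularFormClass
open Fermat.Agent.S48.HK Fermat.Agent.Lib.IS
open scoped MatrixGroups Manifold ModularForm

noncomputable section

variable {N ℓ : ℕ} [NeZero N] [NeZero ℓ] [NeZero (N * ℓ)]

theorem intCast_eq_of_dvd {M M' : ℕ} (h : M ∣ M') {a b : ℤ}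
    (hab : (a : ZMod M') = (b : ZMod M')) : (a : ZMod M) = (b : ZMod M) := by
  have := congrArg (ZMod.castHom h (ZMod M)) hab
  simpa using this

theorem Gamma1_le_of_dvd {M M' : ℕ} (h : M ∣ M') : Gamma1 M' ≤ Gamma1 M := by
  intro A hA
  rw [Gamma1_mem] at hA ⊢
  refine ⟨?_, ?_, ?_⟩
  · have := intCast_eq_of_dvd h (a := A 0 0) (b := 1) (by simpa using hA.1)
    simpa using this
  · have := intCast_eq_of_dvd h (a := A 1 1) (b := 1) (by simpa using hA.2.1)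
    simpa using this
  · have := intCast_eq_of_dvd h (a := A 1 0) (b := 0) (by simpa using hA.2.2)
    simpa using this

theorem Gamma0_le_of_dvd {M M' : ℕ} (h : M ∣ M') : Gamma0 M' ≤ Gamma0 M := by
  intro A hA
  rw [Gamma0_mem] at hA ⊢
  have := intCast_eq_of_dvd h (a := A 1 0) (b := 0) (by simpa using hA)
  simpa using this

theorem Gamma1_mul_le_left (N ℓ : ℕ) : Gamma1 (N * ℓ) ≤ Gamma1 N :=
  Gamma1_le_of_dvd (Dvd.intro ℓ rfl)

theorem Gamma1_mul_le_right (N ℓ : ℕ) : Gamma1 (N * ℓ) ≤ Gamma1 ℓ :=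
  Gamma1_le_of_dvd (Dvd.intro_left N rfl)

/-- invariance: `ModularForm.mul_slash_SL2`; holomorphy: product; zero at the cusps: a cusp of
`Γ₁(Nℓ)` is a cusp of `Γ₁(N)` and of `Γ₁(ℓ)` (`IsCusp.mono`), zero times bounded is zero
(see how Mathlib proves `bdd_at_cusps'` for `ModularForm.mul`). -/
theorem exists_mulForm (f : CuspForm (Gamma1 N) 1) (E : ModularForm (Gamma1 ℓ) 1) :
    ∃ g : CuspForm (Gamma1 (N * ℓ)) 2, ⇑g = ⇑f * ⇑E := by
  refine ⟨{ toFun := ⇑f * ⇑E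
            slash_action_eq' := ?_
            holo' := (CuspFormClass.holo f).mul (ModularFormClass.holo E)
            zero_at_cusps' := ?_ }, rfl⟩
  · rintro _ ⟨γ, hγ, rfl⟩
    refine (SL_slash _ γ).symm.trans ?_
    show (⇑f * ⇑E) ∣[(1 : ℤ) + 1] γ = ⇑f * ⇑E
    rw [ModularForm.mul_slash_SL2, inv1_of_form f γ (Gamma1_mul_le_left N ℓ hγ),
      inv1_of_form E γ (Gamma1_mul_le_right N ℓ hγ)]
  · intro c hc
    rw [Subgroup.IsArithmetic.isCusp_iff_isCusp_SL2Z] at hc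
    rw [OnePoint.isZeroAt_iff_forall_SL2Z hc]
    intro γ _
    show IsZeroAtImInfty ((⇑f * ⇑E) ∣[(1 : ℤ) + 1] γ)
    rw [ModularForm.mul_slash_SL2]
    exact (CuspFormClass.zero_at_infty_slash f γ).mul_boundedAtFilter
      (ModularFormClass.bdd_at_infty_slash E γ)

/-- the product form. -/
def mulForm (f : CuspForm (Gamma1 N) 1) (E : ModularForm (Gamma1 ℓ) 1) :
    CuspForm (Gamma1 (N * ℓ)) 2 := (exists_mulForm f E).choose

theorem coe_mulForm (f : CuspForm (Gamma1 N) 1) (E : ModularForm (Gamma1 ℓ) 1) :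
    ⇑(mulForm f E) = ⇑f * ⇑E := (exists_mulForm f E).choose_spec

theorem qExpansion_mulForm (f : CuspForm (Gamma1 N) 1) (E : ModularForm (Gamma1 ℓ) 1) :
    qExpansion 1 (mulForm f E) = qExpansion 1 f * qExpansion 1 E := by
  rw [coe_mulForm]
  exact qExpansion_mul (nice_of_modularForm (one_mem_strictPeriods_Gamma1 N) f).analyticAt
    (nice_of_modularForm (one_mem_strictPeriods_Gamma1 ℓ) E).analyticAt

theorem mulForm_smul_smul (c c' : ℂ) (f : CuspForm (Gamma1 N) 1) (E : ModularForm (Gamma1 ℓ) 1) :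
    mulForm (c • f) (c' • E) = (c * c') • mulForm f E := by
  apply DFunLike.coe_injective
  funext z
  show (⇑(mulForm (c • f) (c' • E))) z = (c * c') • (⇑(mulForm f E)) z
  rw [coe_mulForm, coe_mulForm]
  show (c • f z) * (c' • E z) = (c * c') • (f z * E z)
  simp only [smul_eq_mul]
  ring

/-- `⟨d⟩(f E) = (⟨d mod N⟩ f)(⟨d mod ℓ⟩ E)`: slash by `γ = diaRep (Nℓ) d ∈ Γ₀(Nℓ) ≤ Γ₀(N) ⊓ Γ₀(ℓ)`,
`ModularForm.mul_slash_SL2`, `slash_eq_diamond`, `slash_eq_diamondMF`. -/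
theorem diamond_mulForm (d : (ZMod (N * ℓ))ˣ) (f : CuspForm (Gamma1 N) 1)
    (E : ModularForm (Gamma1 ℓ) 1) :
    diamond 2 d (mulForm f E) =
      mulForm (diamond 1 (ZMod.unitsMap (Dvd.intro ℓ rfl) d) f)
        (diamondMF 1 (ZMod.unitsMap (Dvd.intro_left N rfl) d) E) := by
  apply DFunLike.coe_injective
  rw [coe_diamond, coe_mulForm, coe_mulForm]
  show (⇑f * ⇑E) ∣[(1 : ℤ) + 1] diaRep (N * ℓ) d = _
  have key : ∀ {M : ℕ} (h : M ∣ N * ℓ),
      (((diaRep (N * ℓ) d) 1 1 : ℤ) : ZMod M) = ((ZMod.unitsMap h d : (ZMod M)ˣ) : ZMod M) := by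
    intro M h
    have h1 := congrArg (ZMod.castHom h (ZMod M)) (diaRep_apply (N * ℓ) d)
    rw [map_intCast] at h1
    exact h1
  rw [ModularForm.mul_slash_SL2,
    slash_eq_diamond f (Gamma0_le_of_dvd (Dvd.intro ℓ rfl) (diaRep_mem (N * ℓ) d)) _
      (key (Dvd.intro ℓ rfl)),
    slash_eq_diamondMF E (Gamma0_le_of_dvd (Dvd.intro_left N rfl) (diaRep_mem (N * ℓ) d)) _
      (key (Dvd.intro_left N rfl))]

end

end Fermat.Agent.S48.WT1
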