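import Fermat.Agent.S48.WT1.Cong
import Fermat.Agent.S48.WT1.Prod
import Fermat.Agent.S48.WT1.Class

set_option autoImplicit false

/-!
# S48 / WT1 : main theorem

A weight one eigenform `f` on `Γ₁(N)` with nebentypus `ε` and `λ`-integral coefficients: the
eigensystem `T_p ↦ ā_p`, `⟨d⟩ ↦ ε̄(d) d⁻¹` occurs in `S₂(Γ₁(Nℓ))`.
-/

namespace Fermat.Agent.S48.WT1

open UpperHalfPlane ModularForm CongruenceSubgroup ModularFormClass
open Fermat.Agent.S48.HK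
open scoped MatrixGroups Manifold ModularForm

noncomputable section

variable {κ : Type*} [Field κ] (D : RedDatum κ)

/-- the eigensystem mod `λ` attached to `f`, `ε`. -/
def eigSys (N ℓ : ℕ) (ε : DirichletCharacter ℂ N) (f : CuspForm (Gamma1 N) 1)
    (hfR : ∀ n, qCoeff f n ∈ D.R) (hεR : ∀ d : ZMod N, ε d ∈ D.R) : Idx (N * ℓ) → κ :=
  Sum.elim (fun p => D.red ⟨qCoeff f p.1, hfR p.1⟩)
    (fun d => D.red ⟨ε ((ZMod.unitsMap (Dvd.intro ℓ rfl) d : (ZMod N)ˣ) : ZMod N), hεR _⟩ *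
      (((d : ZMod (N * ℓ)).val : κ)⁻¹))

theorem occurs_weightOne (N ℓ : ℕ) [NeZero N] [NeZero (N * ℓ)] (hℓ : ℓ.Prime) (h5 : 5 ≤ ℓ)
    (hchar : (ℓ : κ) = 0) (hζ : ∀ x : ℂ, x ^ ℓ = 1 → x ∈ D.R)
    (ε : DirichletCharacter ℂ N) (f : CuspForm (Gamma1 N) 1)
    (hf₁ : qCoeff f 1 = 1)
    (hT : ∀ p : ℕ, p.Prime → ¬ p ∣ N → ∀ n : ℕ,
        qCoeff f (p * n) + ε (p : ZMod N) * (if p ∣ n then qCoeff f (n / p) else 0) =
          qCoeff f p * qCoeff f n)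
    (hneb : ∀ d : (ZMod N)ˣ, diamond 1 d f = ε (d : ZMod N) • f)
    (hfR : ∀ n, qCoeff f n ∈ D.R) (hεR : ∀ d : ZMod N, ε d ∈ D.R) :
    Occurs (N * ℓ) 2 (eigSys D N ℓ ε f hfR hεR) := by
  have : NeZero ℓ := ⟨hℓ.ne_zero⟩
  have hodd : Odd ℓ := hℓ.odd_of_ne_two (by omega)
  have : CharP κ ℓ := (CharP.charP_iff_prime_eq_zero hℓ).2 hchar
  -- the reduction `ℤ/Nℓ → κ`
  let φ : ZMod (N * ℓ) →+* κ := ZMod.castHom (Dvd.intro_left N rfl) κ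
  have hφ : ∀ x : ZMod (N * ℓ), ((x.val : ℕ) : κ) = φ x := fun x => ZMod.natCast_val x
  have hφl : ∀ x : ZMod (N * ℓ),
      (((ZMod.castHom (Dvd.intro_left N rfl) (ZMod ℓ) x).val : ℕ) : κ) = φ x := by
    intro x
    rw [ZMod.natCast_val]
    have h1 : (ZMod.castHom (dvd_refl ℓ) κ).comp (ZMod.castHom (Dvd.intro_left N rfl) (ZMod ℓ)) = φ :=
      RingHom.ext_zmod _ _
    exact RingHom.congr_fun h1 x
  let a : ℕ → κ := fun n => D.red ⟨qCoeff f n, hfR n⟩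
  let χ : (ZMod (N * ℓ))ˣ → κ := fun d =>
    D.red ⟨ε ((ZMod.unitsMap (Dvd.intro ℓ rfl) d : (ZMod N)ˣ) : ZMod N), hεR _⟩ *
      (((d : ZMod (N * ℓ)).val : κ)⁻¹)
  have hSys : eigSys D N ℓ ε f hfR hεR = Sum.elim (fun p : GoodPrime (N * ℓ) => a p.1) χ := rfl
  rw [hSys]
  have hχ : ∀ d d', χ (d * d') = χ d * χ d' := by
    intro d d'
    show D.red ⟨ε ((ZMod.unitsMap (Dvd.intro ℓ rfl) (d * d') : (ZMod N)ˣ) : ZMod N), hεR _⟩ *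
        ((((d * d' : (ZMod (N * ℓ))ˣ) : ZMod (N * ℓ)).val : κ)⁻¹) =
      (D.red ⟨ε ((ZMod.unitsMap (Dvd.intro ℓ rfl) d : (ZMod N)ˣ) : ZMod N), hεR _⟩ *
        (((d : ZMod (N * ℓ)).val : κ)⁻¹)) *
      (D.red ⟨ε ((ZMod.unitsMap (Dvd.intro ℓ rfl) d' : (ZMod N)ˣ) : ZMod N), hεR _⟩ *
        (((d' : ZMod (N * ℓ)).val : κ)⁻¹))
    rw [hφ, hφ, hφ, Units.val_mul, map_mul φ, mul_inv]
    have h1 : (⟨ε ((ZMod.unitsMap (Dvd.intro ℓ rfl) (d * d') : (ZMod N)ˣ) : ZMod N), hεR _⟩ : D.R) =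
        ⟨ε ((ZMod.unitsMap (Dvd.intro ℓ rfl) d : (ZMod N)ˣ) : ZMod N), hεR _⟩ *
        ⟨ε ((ZMod.unitsMap (Dvd.intro ℓ rfl) d' : (ZMod N)ˣ) : ZMod N), hεR _⟩ := by
      apply Subtype.ext
      show ε ((ZMod.unitsMap (Dvd.intro ℓ rfl) (d * d') : (ZMod N)ˣ) : ZMod N) =
        ε ((ZMod.unitsMap (Dvd.intro ℓ rfl) d : (ZMod N)ˣ) : ZMod N) *
        ε ((ZMod.unitsMap (Dvd.intro ℓ rfl) d' : (ZMod N)ˣ) : ZMod N)
      rw [map_mul, Units.val_mul, map_mul]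
    rw [h1, map_mul]
    ring
  have hχ1 : χ 1 = 1 := by
    show D.red ⟨ε ((ZMod.unitsMap (Dvd.intro ℓ rfl) 1 : (ZMod N)ˣ) : ZMod N), hεR _⟩ *
        ((((1 : (ZMod (N * ℓ))ˣ) : ZMod (N * ℓ)).val : κ)⁻¹) = 1
    rw [hφ, Units.val_one, map_one φ, inv_one, mul_one]
    have h1 : (⟨ε ((ZMod.unitsMap (Dvd.intro ℓ rfl) 1 : (ZMod N)ˣ) : ZMod N), hεR _⟩ : D.R) = 1 := by
      apply Subtype.ext
      show ε ((ZMod.unitsMap (Dvd.intro ℓ rfl) 1 : (ZMod N)ˣ) : ZMod N) = 1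
      rw [map_one, Units.val_one, map_one]
    rw [h1, map_one]
  have ha1 : a 1 = 1 := by
    show D.red ⟨qCoeff f 1, hfR 1⟩ = 1
    have h1 : (⟨qCoeff f 1, hfR 1⟩ : D.R) = 1 := Subtype.ext hf₁
    rw [h1, map_one]
  have hrel : ∀ (p : GoodPrime (N * ℓ)) (n : ℕ),
      a (p.1 * n) + (p.1 : κ) * χ p.unit * (if p.1 ∣ n then a (n / p.1) else 0) =
        a p.1 * a n := by
    intro p n
    have hpN : ¬ p.1 ∣ N := fun h => p.2.2 (Dvd.dvd.mul_right h ℓ)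
    have hpl : ¬ p.1 ∣ ℓ := fun h => p.2.2 (Dvd.dvd.mul_left h N)
    have hpκ : (p.1 : κ) ≠ 0 := by
      intro h0
      rw [CharP.cast_eq_zero_iff κ ℓ] at h0
      exact hpl (((Nat.prime_dvd_prime_iff_eq hℓ p.2.1).1 h0) ▸ dvd_refl _)
    have hχp : (p.1 : κ) * χ p.unit = D.red ⟨ε (p.1 : ZMod N), hεR _⟩ := by
      show (p.1 : κ) * (D.red ⟨ε ((ZMod.unitsMap (Dvd.intro ℓ rfl) p.unit : (ZMod N)ˣ) : ZMod N),
          hεR _⟩ * (((p.unit : ZMod (N * ℓ)).val : κ)⁻¹)) = _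
      rw [hφ, GoodPrime.coe_unit, map_natCast φ]
      have h1 : ((ZMod.unitsMap (Dvd.intro ℓ rfl) p.unit : (ZMod N)ˣ) : ZMod N) = (p.1 : ZMod N) := by
        rw [ZMod.unitsMap_val, GoodPrime.coe_unit, ZMod.cast_natCast (Dvd.intro ℓ rfl)]
      have h2 : (⟨ε ((ZMod.unitsMap (Dvd.intro ℓ rfl) p.unit : (ZMod N)ˣ) : ZMod N), hεR _⟩ : D.R) =
          ⟨ε (p.1 : ZMod N), hεR _⟩ := Subtype.ext (by rw [h1])
      rw [h2]
      field_simp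
    rw [hχp]
    have h := hT p.1 p.2.1 hpN n
    by_cases hdvd : p.1 ∣ n
    · rw [if_pos hdvd] at h ⊢
      have h3 : (⟨qCoeff f (p.1 * n), hfR _⟩ : D.R) + ⟨ε (p.1 : ZMod N), hεR _⟩ *
          ⟨qCoeff f (n / p.1), hfR _⟩ = ⟨qCoeff f p.1, hfR _⟩ * ⟨qCoeff f n, hfR _⟩ :=
        Subtype.ext h
      have h4 := congrArg D.red h3
      rw [map_add, map_mul, map_mul] at h4
      exact h4
    · rw [if_neg hdvd] at h ⊢
      have h3 : (⟨qCoeff f (p.1 * n), hfR _⟩ : D.R) =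
          ⟨qCoeff f p.1, hfR _⟩ * ⟨qCoeff f n, hfR _⟩ :=
        Subtype.ext (by simpa using h)
      have h4 := congrArg D.red h3
      rw [map_mul] at h4
      rw [mul_zero, add_zero]
      exact h4
  refine occurs_of_inClass (D := D) hχ hχ1 ha1 hrel (h := mulForm f (Et ℓ hodd 1)) ?_
  intro d n
  rw [diamond_mulForm, hneb, diamondMF_Et hℓ h5 hodd, mulForm_smul_smul, qCoeff_smul, one_mul]
  have h1 : D.Red (qCoeff (mulForm f (Et ℓ hodd (ZMod.unitsMap (Dvd.intro_left N rfl) d))) n)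
      (a n) := by
    rw [qCoeff, qExpansion_mulForm]
    exact RedDatum.red_coeff_mul (fun m => RedDatum.red_of_mem (hfR m))
      (fun m => red_qCoeff_Et D hℓ h5 hodd hchar hζ _ m) n
  have h2 : D.Red (ε ((ZMod.unitsMap (Dvd.intro ℓ rfl) d : (ZMod N)ˣ) : ZMod N) *
      kap ℓ 1 (ZMod.unitsMap (Dvd.intro_left N rfl) d)) (χ d) := by
    refine ((RedDatum.red_of_mem (hεR _)).mul (red_kap D hℓ h5 hchar hζ 1 _)).congr rfl ?_
    show _ = D.red ⟨ε ((ZMod.unitsMap (Dvd.intro ℓ rfl) d : (ZMod N)ˣ) : ZMod N), hεR _⟩ *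
      (((d : ZMod (N * ℓ)).val : κ)⁻¹)
    rw [hφ, ← hφl]
    rfl
  exact (h2.mul h1).congr rfl (by rw [one_mul])

end

end Fermat.Agent.S48.WT1
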