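import Fermat.Agent.S48.WT1.Asymp
import Fermat.Agent.S48.WT1.ConstTerm
import Fermat.Agent.S48.WT1.LevelOne

set_option autoImplicit false

/-!
# S48 / WT1 : `G_{3,w}` (`w ≠ 0`, `L` odd) has no zero on `ℍ`   (it is `℘'` at a torsion point)
-/

namespace Fermat.Agent.S48.WT1

open UpperHalfPlane ModularForm Matrix Filter Topology Complex
open scoped MatrixGroups Manifold ModularForm Real

noncomputable section

/-- the leading coefficient of `G_{3,w}` is non zero for every `w ≠ 0`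
(`tendsto_G_div`, `Zc_three_ne_zero`). -/
theorem tendsto_G3_div (L : ℕ) [NeZero L] (hL : Odd L) {w : Fin 2 → ZMod L} (hw : w ≠ 0) :
    ∃ c : ℂ, c ≠ 0 ∧ Tendsto (fun z : ℍ => G L 3 w z / tq L z ^ mu L (w 0)) atImInfty (𝓝 c) := by
  obtain ⟨c, hc, h1, h2⟩ := tendsto_G_div L hL (k := 3) le_rfl (w 0) (w 1)
  have hw' : ![w 0, w 1] = w := by
    funext i
    fin_cases i <;> rfl
  rw [hw'] at hc
  refine ⟨c, ?_, hc⟩
  by_cases h0 : w 0 = 0
  · rw [h2 h0]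
    apply Zc_three_ne_zero L hL
    intro h3
    apply hw
    funext i
    fin_cases i
    · exact h0
    · exact h3
  · exact h1 h0

/-- the norm `∏_{w ≠ 0} G_{3,w}`. -/
def normG3 (L : ℕ) [NeZero L] : ℍ → ℂ := fun z => ∏ w : {w : Fin 2 → ZMod L // w ≠ 0}, G L 3 w.1 z

theorem NonVanish_normG3_eq (L : ℕ) [NeZero L] :
    normG3 L = ∏ w : {w : Fin 2 → ZMod L // w ≠ 0}, G L 3 w.1 := by
  funext z
  rw [Finset.prod_apply]
  rfl

theorem NonVanish_card (L : ℕ) [NeZero L] :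
    ((Finset.univ : Finset {w : Fin 2 → ZMod L // w ≠ 0}).card : ℤ) = (L : ℤ) ^ 2 - 1 := by
  classical
  have h1 : Fintype.card {w : Fin 2 → ZMod L // w ≠ 0} = Fintype.card (Fin 2 → ZMod L) - 1 := by
    rw [Fintype.card_subtype_compl, Fintype.card_subtype_eq]
  have h2 : Fintype.card (Fin 2 → ZMod L) = L ^ 2 := by
    rw [Fintype.card_fun, ZMod.card, Fintype.card_fin]
  have h3 : 1 ≤ L ^ 2 := Nat.one_le_pow _ _ (Nat.pos_of_ne_zero (NeZero.ne L))
  rw [Finset.card_univ, h1, h2, Nat.cast_sub h3]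
  push_cast
  ring

/-- the permutation of the nonzero vectors induced by `A`. -/
def NonVanish_perm (L : ℕ) (A : SL(2, ℤ)) :
    {w : Fin 2 → ZMod L // w ≠ 0} ≃ {w : Fin 2 → ZMod L // w ≠ 0} :=
  (vecPerm L A).subtypeEquiv fun w =>
    ⟨fun h => vecPerm_ne_zero L A h, fun h h0 => h (by rw [h0, vecPerm_apply, zero_vecMul])⟩

/-- `ModularForm.prod_slash` (+ `G_slash`), reindex by `vecPerm L A` restricted to `w ≠ 0`;
the number of factors is `L² - 1`. -/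
theorem normG3_slash (L : ℕ) [NeZero L] (A : SL(2, ℤ)) :
    normG3 L ∣[(3 * ((L : ℤ) ^ 2 - 1))] A = normG3 L := by
  rw [NonVanish_normG3_eq, ← NonVanish_card, ModularForm.SL_slash, ModularForm.prod_slash]
  have hdet : |((A : GL (Fin 2) ℝ).det.val : ℝ)| = 1 := by simp
  rw [hdet, _root_.one_zpow, one_smul]
  have h1 : ∀ w : {w : Fin 2 → ZMod L // w ≠ 0},
      G L 3 w.1 ∣[(3 : ℤ)] (A : GL (Fin 2) ℝ) = G L 3 (NonVanish_perm L A w).1 := by
    intro w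
    rw [← ModularForm.SL_slash, G_slash]
    rfl
  rw [Finset.prod_congr rfl fun w _ => h1 w]
  exact Equiv.prod_comp (NonVanish_perm L A) fun w => G L 3 w.1

theorem NonVanish_mu_zero (L : ℕ) [NeZero L] : mu L 0 = 0 := by
  unfold mu
  simp

theorem NonVanish_sum_mu (L : ℕ) [NeZero L] (hL : Odd L) :
    ∑ w : {w : Fin 2 → ZMod L // w ≠ 0}, mu L (w.1 0) = L * ((L ^ 2 - 1) / 4) := by
  classical
  have h1 : ∑ w : {w : Fin 2 → ZMod L // w ≠ 0}, mu L (w.1 0)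
      = ∑ w ∈ (Finset.univ : Finset (Fin 2 → ZMod L)).erase 0, mu L (w 0) :=
    (Finset.sum_subtype ((Finset.univ : Finset (Fin 2 → ZMod L)).erase 0) (p := fun w => w ≠ 0)
      (fun w => by simp) fun w : Fin 2 → ZMod L => mu L (w 0)).symm
  have h2 : ∑ w ∈ (Finset.univ : Finset (Fin 2 → ZMod L)).erase 0, mu L (w 0)
      = ∑ w : Fin 2 → ZMod L, mu L (w 0) :=
    Finset.sum_erase _ (by rw [Pi.zero_apply, NonVanish_mu_zero])
  have h3 : ∑ w : Fin 2 → ZMod L, mu L (w 0) = ∑ x : ZMod L × ZMod L, mu L x.1 :=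
    Equiv.sum_comp (finTwoArrowEquiv (ZMod L)) fun x => mu L x.1
  have h4 : ∑ x : ZMod L × ZMod L, mu L x.1 = L * ∑ a : ZMod L, mu L a := by
    rw [Fintype.sum_prod_type, Finset.mul_sum]
    refine Finset.sum_congr rfl fun a _ => ?_
    change ∑ _y : ZMod L, mu L a = L * mu L a
    rw [Finset.sum_const, Finset.card_univ, ZMod.card, smul_eq_mul]
  have h5 : ∑ a : ZMod L, mu L a = (L ^ 2 - 1) / 4 := by
    rw [← sum_mu L hL, Nat.mul_div_cancel_left _ (by norm_num)]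
  rw [h1, h2, h3, h4, h5]

/-- `∑_{w ≠ 0} mu (w 0) = L * ∑_a mu a`, `4 ∑_a mu a = L² - 1`, `t^L = q`. -/
theorem tendsto_normG3 (L : ℕ) [NeZero L] (hL : Odd L) :
    ∃ c : ℂ, c ≠ 0 ∧ Tendsto (fun z : ℍ => normG3 L z /
      cexp (2 * π * Complex.I * z) ^ ((L ^ 2 - 1) / 4)) atImInfty (𝓝 c) := by
  choose c hc0 hc using fun w : {w : Fin 2 → ZMod L // w ≠ 0} => tendsto_G3_div L hL w.2
  refine ⟨∏ w, c w, Finset.prod_ne_zero_iff.mpr fun w _ => hc0 w, ?_⟩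
  have h1 : (fun z : ℍ => normG3 L z / cexp (2 * π * Complex.I * z) ^ ((L ^ 2 - 1) / 4))
      = fun z : ℍ => ∏ w : {w : Fin 2 → ZMod L // w ≠ 0}, G L 3 w.1 z / tq L z ^ mu L (w.1 0) := by
    funext z
    rw [Finset.prod_div_distrib, Finset.prod_pow_eq_pow_sum, NonVanish_sum_mu L hL, pow_mul,
      tq_pow]
    rfl
  rw [h1]
  exact tendsto_finsetProd _ fun w _ => hc w

/-- **Non vanishing** (`ne_zero_of_levelOne` with `m = (L² - 1)/4`). -/
theorem G3_ne_zero (L : ℕ) [NeZero L] (hL : Odd L) {w : Fin 2 → ZMod L} (hw : w ≠ 0) (z : ℍ) :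
    G L 3 w z ≠ 0 := by
  obtain ⟨c, hc, hlim⟩ := tendsto_normG3 L hL
  have hol : MDiff (normG3 L) := by
    rw [NonVanish_normG3_eq]
    exact MDifferentiable.prod fun w _ => G_mdiff L le_rfl w.1
  have hwt : (12 * (((L ^ 2 - 1) / 4 : ℕ) : ℤ)) = 3 * ((L : ℤ) ^ 2 - 1) := by
    have h4 : 4 * ((L ^ 2 - 1) / 4) = L ^ 2 - 1 :=
      Nat.mul_div_cancel' ⟨_, (sum_mu L hL).symm⟩
    have h3 : 1 ≤ L ^ 2 := Nat.one_le_pow _ _ (Nat.pos_of_ne_zero (NeZero.ne L))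
    have h5 : (4 : ℤ) * (((L ^ 2 - 1) / 4 : ℕ) : ℤ) = (L : ℤ) ^ 2 - 1 := by
      have := congrArg (fun n : ℕ => (n : ℤ)) h4
      simp only [Nat.cast_mul, Nat.cast_sub h3] at this
      push_cast at this
      exact this
    linarith
  have hinv : ∀ A : SL(2, ℤ), normG3 L ∣[(12 * (((L ^ 2 - 1) / 4 : ℕ) : ℤ))] A = normG3 L := by
    intro A
    rw [hwt]
    exact normG3_slash L A
  have h := ne_zero_of_levelOne ((L ^ 2 - 1) / 4) (normG3 L) hol hinv hc hlim z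
  exact Finset.prod_ne_zero_iff.mp h ⟨w, hw⟩ (Finset.mem_univ _)

end

end Fermat.Agent.S48.WT1
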