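import Fermat.Agent.S48.WT1.NonVanish
import Fermat.Agent.S48.HK.Dia

set_option autoImplicit false

/-!
# S48 / WT1 : the weight one forms `E_b = G_{4,(0,b)} / G_{3,(0,b)}` on `Γ₁(L)`
-/

namespace Fermat.Agent.S48.WT1

open UpperHalfPlane ModularForm Matrix Filter Topology Complex CongruenceSubgroup
open Fermat.Agent.S48.HK
open scoped MatrixGroups Manifold ModularForm Real

noncomputable section

/-- the quotient `G_{4,w} / G_{3,w}`. -/
def quotG (L : ℕ) (w : Fin 2 → ZMod L) : ℍ → ℂ := fun z => G L 4 w z / G L 3 w z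

/-- slash of a quotient of a weight `4` by a weight `3` function. -/
theorem quot_slash_aux {f₄ f₃ g₄ g₃ : ℍ → ℂ} {A : SL(2, ℤ)} (h₄ : f₄ ∣[(4 : ℤ)] A = g₄)
    (h₃ : f₃ ∣[(3 : ℤ)] A = g₃) :
    (fun z => f₄ z / f₃ z) ∣[(1 : ℤ)] A = fun z => g₄ z / g₃ z := by
  funext z
  have e₄ := congrFun h₄ z
  have e₃ := congrFun h₃ z
  rw [SL_slash_apply] at e₄ e₃ ⊢
  set D := denom (Matrix.SpecialLinearGroup.toGL
    ((Matrix.SpecialLinearGroup.map (Int.castRingHom ℝ)) A)) ↑z with hD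
  have hD0 : D ≠ 0 := denom_ne_zero _ z
  rw [← e₄, ← e₃]
  show f₄ (A • z) / f₃ (A • z) * D ^ (-(1 : ℤ)) = _
  by_cases h0 : f₃ (A • z) = 0
  · rw [h0]; simp
  · have e1 : D ^ (-(4 : ℤ)) = (D ^ 4)⁻¹ := by
      rw [_root_.zpow_neg]; norm_cast
    have e2 : D ^ (-(3 : ℤ)) = (D ^ 3)⁻¹ := by
      rw [_root_.zpow_neg]; norm_cast
    have e3 : D ^ (-(1 : ℤ)) = D⁻¹ := by
      rw [_root_.zpow_neg, zpow_one]
    rw [e1, e2, e3]
    field_simp

/-- directly from `SL_slash_apply` and `G_slash`. -/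
theorem quotG_slash (L : ℕ) (w : Fin 2 → ZMod L) (A : SL(2, ℤ)) :
    quotG L w ∣[(1 : ℤ)] A = quotG L (w ᵥ* redSL L A) :=
  quot_slash_aux (G_slash L 4 w A) (G_slash L 3 w A)

theorem quotG_mdiff (L : ℕ) [NeZero L] (hL : Odd L) {w : Fin 2 → ZMod L} (hw : w ≠ 0) :
    MDiff (quotG L w) := by
  have h4 := UpperHalfPlane.mdifferentiable_iff.1 (G_mdiff L (k := 4) (by norm_num) w)
  have h3 := UpperHalfPlane.mdifferentiable_iff.1 (G_mdiff L (k := 3) (by norm_num) w)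
  rw [UpperHalfPlane.mdifferentiable_iff]
  exact h4.div h3 (fun z _ => G3_ne_zero L hL hw _)

/-- `G_4/G_3 = (G_4/t^mu) / (G_3/t^mu)` tends to a limit (`tendsto_G_div`, `tendsto_G3_div`). -/
theorem quotG_bdd (L : ℕ) [NeZero L] (hL : Odd L) {w : Fin 2 → ZMod L} (hw : w ≠ 0) :
    IsBoundedAtImInfty (quotG L w) := by
  obtain ⟨c₃, hc₃, h₃⟩ := tendsto_G3_div L hL hw
  obtain ⟨c₄, h₄, -, -⟩ := tendsto_G_div L hL (k := 4) (by norm_num) (w 0) (w 1)
  have hw' : ![w 0, w 1] = w := by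
    funext i
    fin_cases i <;> rfl
  rw [hw'] at h₄
  have h := h₄.div h₃ hc₃
  have e : (fun z : ℍ => G L ((4 : ℕ) : ℤ) w z / tq L z ^ mu L (w 0) /
      (G L 3 w z / tq L z ^ mu L (w 0))) = quotG L w := by
    funext z
    have ht : tq L z ^ mu L (w 0) ≠ 0 := pow_ne_zero _ (tq_ne_zero L z)
    unfold quotG
    rw [div_div_div_cancel_right₀ ht]
    rfl
  have h' : Tendsto (quotG L w) atImInfty (𝓝 (c₄ / c₃)) := by
    rw [← e]
    exact h
  exact h'.isBigO_one ℝ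

/-- the weight one modular form `E_b` on `Γ₁(L)`.  Cusps: `Γ₁(L)` is arithmetic, so it is enough
to bound `quotG ∣ A` for all `A ∈ SL(2,ℤ)` (see how `GAL/Tors/TwistedEis` or `Lib/EisChi` build a
`ModularForm` from `isBoundedAtImInfty_..._slash`). -/
theorem exists_E1 (L : ℕ) [NeZero L] (hL : Odd L) (b : (ZMod L)ˣ) :
    ∃ E : ModularForm (Gamma1 L) 1, ⇑E = quotG L ![0, (b : ZMod L)] := by
  by_cases hw : (![0, (b : ZMod L)] : Fin 2 → ZMod L) = 0
  · -- then `L = 1`, `G_3 = 0` and the quotient vanishes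
    refine ⟨0, ?_⟩
    have h3 : G L 3 ![0, (b : ZMod L)] = 0 := by
      have h1 := G_slash L 3 ![0, (b : ZMod L)] (-1)
      rw [hw, Matrix.zero_vecMul] at h1
      rw [hw]
      funext z
      have h2 := congrFun h1 z
      rw [SL_slash_apply, ModularGroup.SL_neg_smul, one_smul] at h2
      have hden : denom (Matrix.SpecialLinearGroup.toGL
          ((Matrix.SpecialLinearGroup.map (Int.castRingHom ℝ)) (-1 : SL(2, ℤ)))) ↑z = -1 := by
        simp [denom]
      rw [hden] at h2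
      have e : ((-1 : ℂ)) ^ (-(3 : ℤ)) = -1 := by
        rw [_root_.zpow_neg]; norm_num [zpow_ofNat]
      rw [e] at h2
      have h4 : (2 : ℂ) * G L 3 0 z = 0 := by linear_combination -h2
      simpa using h4
    funext z
    unfold quotG
    rw [h3]
    simp
  · refine ⟨{ toFun := quotG L ![0, (b : ZMod L)]
              slash_action_eq' := ?_
              holo' := quotG_mdiff L hL hw
              bdd_at_cusps' := ?_ }, rfl⟩
    · rintro _ ⟨γ, hγ, rfl⟩
      exact (SL_slash _ γ).symm.trans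
        (quot_slash_aux (G_slash_Gamma1 L 4 b hγ) (G_slash_Gamma1 L 3 b hγ))
    · intro c hc
      rw [Subgroup.IsArithmetic.isCusp_iff_isCusp_SL2Z] at hc
      rw [OnePoint.isBoundedAt_iff_forall_SL2Z hc]
      intro γ _
      show IsBoundedAtImInfty (quotG L ![0, (b : ZMod L)] ∣[(1 : ℤ)] γ)
      rw [quotG_slash]
      exact quotG_bdd L hL (vecPerm_ne_zero L γ hw)

/-- the weight one modular form `E_b`. -/
def E1 (L : ℕ) [NeZero L] (hL : Odd L) (b : (ZMod L)ˣ) : ModularForm (Gamma1 L) 1 :=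
  (exists_E1 L hL b).choose

theorem coe_E1 (L : ℕ) [NeZero L] (hL : Odd L) (b : (ZMod L)ˣ) :
    ⇑(E1 L hL b) = quotG L ![0, (b : ZMod L)] := (exists_E1 L hL b).choose_spec

/-- `⟨d⟩ E_b = E_{b d}`. -/
theorem diamondMF_E1 (L : ℕ) [NeZero L] (hL : Odd L) (b d : (ZMod L)ˣ) :
    diamondMF 1 d (E1 L hL b) = E1 L hL (b * d) := by
  apply DFunLike.coe_injective
  rw [coe_diamondMF, coe_E1, coe_E1]
  have h := quot_slash_aux (G_slash_Gamma0 L 4 (b : ZMod L) (diaRep_mem L d))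
    (G_slash_Gamma0 L 3 (b : ZMod L) (diaRep_mem L d))
  rw [diaRep_apply] at h
  rw [Units.val_mul]
  exact h

end

end Fermat.Agent.S48.WT1
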